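import Fermat.Agent.ClassLSeries.TestFun
import Mathlib.NumberTheory.NumberField.DedekindZeta

/-!
# Partial zeta functions of ideal classes

Near `s = 1+` the partial zeta functions of the ideal classes of a number field tend to infinity and
differ from each other by `O(1)`.
-/

set_option autoImplicit false

open NumberField NumberField.InfinitePlace NumberField.Units Module Finset Filter Ideal
open scoped NumberField nonZeroDivisors ENNReal Topology

noncomputable section

namespace Fermat.Agent.ClassLSeries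

variable (K : Type*) [Field K] [NumberField K]

/-- The term of an ideal in the zeta function, in `ℝ≥0∞`. -/
def idealTerm (s : ℝ) (I : (Ideal (𝓞 K))⁰) : ℝ≥0∞ :=
  ENNReal.ofReal ((Ideal.absNorm (I : Ideal (𝓞 K)) : ℝ) ^ (-s))

/-- The zeta function of `K`, in `ℝ≥0∞`. -/
def zetaSum (s : ℝ) : ℝ≥0∞ := ∑' I : (Ideal (𝓞 K))⁰, idealTerm K s I

/-- The zeta function of an ideal class, in `ℝ≥0∞`. -/
def classZeta (C : ClassGroup (𝓞 K)) (s : ℝ) : ℝ≥0∞ :=
  ∑' I : {I : (Ideal (𝓞 K))⁰ // ClassGroup.mk0 I = C}, idealTerm K s I.1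

lemma classZeta_le_zetaSum (C : ClassGroup (𝓞 K)) (s : ℝ) : classZeta K C s ≤ zetaSum K s :=
  ENNReal.tsum_comp_le_tsum_of_injective Subtype.val_injective (idealTerm K s)

/-! ### The pole of the zeta function -/

lemma absNorm_pos' (I : (Ideal (𝓞 K))⁰) : 0 < Ideal.absNorm (I : Ideal (𝓞 K)) :=
  Ideal.absNorm_pos_of_nonZeroDivisors I

/-- Number of ideals of given norm. -/
def normCount (n : ℕ) : ℕ := Nat.card {I : Ideal (𝓞 K) // absNorm I = n}

lemma zetaSum_eq_tsum_normCount {s : ℝ} (hs : 0 < s) :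
    zetaSum K s = ∑' n : ℕ, ENNReal.ofReal ((normCount K n : ℝ) * (n : ℝ) ^ (-s)) := by
  classical
  unfold zetaSum
  rw [← (Equiv.sigmaFiberEquiv fun I : (Ideal (𝓞 K))⁰ => absNorm (I : Ideal (𝓞 K))).tsum_eq,
    ENNReal.tsum_sigma']
  refine tsum_congr fun n => ?_
  have hterm : ∀ I : {I : (Ideal (𝓞 K))⁰ // absNorm (I : Ideal (𝓞 K)) = n},
      idealTerm K s (Equiv.sigmaFiberEquiv _ ⟨n, I⟩) = ENNReal.ofReal ((n : ℝ) ^ (-s)) := by
    intro I
    simp [idealTerm, I.2]
  rcases eq_or_ne n 0 with rfl | hn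
  · have : IsEmpty {I : (Ideal (𝓞 K))⁰ // absNorm (I : Ideal (𝓞 K)) = 0} :=
      ⟨fun I => (absNorm_pos' K I.1).ne' I.2⟩
    simp [tsum_empty, Real.zero_rpow (neg_ne_zero.mpr hs.ne')]
  · have : Finite {I : Ideal (𝓞 K) // absNorm I = n} :=
      (Ideal.finite_setOfPred_absNorm_eq n).to_subtype
    let e : {I : (Ideal (𝓞 K))⁰ // absNorm (I : Ideal (𝓞 K)) = n} ≃
        {I : Ideal (𝓞 K) // absNorm I = n} :=
      { toFun := fun I => ⟨I.1.1, I.2⟩
        invFun := fun I => ⟨⟨I.1, mem_nonZeroDivisors_of_ne_zero fun h => hn (by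
          rw [← I.2, Ideal.absNorm_eq_zero_iff]; exact h)⟩, I.2⟩
        left_inv := fun _ => rfl
        right_inv := fun _ => rfl }
    simp_rw [hterm]
    rw [ENNReal.tsum_const, ENat.card_congr e, ENat.card_eq_coe_natCard,
      ENNReal.ofReal_mul (Nat.cast_nonneg _), ENNReal.ofReal_natCast]
    rfl

lemma eventually_zetaSum_bounds :
    ∀ᶠ s : ℝ in 𝓝[>] 1, zetaSum K s ≠ ⊤ ∧
      dedekindZeta_residue K / 2 ≤ (s - 1) * (zetaSum K s).toReal ∧
      (s - 1) * (zetaSum K s).toReal ≤ 2 * dedekindZeta_residue K := by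
  have hρ := dedekindZeta_residue_pos K
  have hlim : Tendsto (fun s : ℝ => (((s : ℂ) - 1) * dedekindZeta K s).re) (𝓝[>] 1)
      (𝓝 (dedekindZeta_residue K)) := by
    have := (Complex.continuous_re.tendsto _).comp (tendsto_sub_one_mul_dedekindZeta_nhdsGT K)
    simpa [Function.comp_def] using this
  filter_upwards [hlim.eventually (eventually_ge_nhds (half_lt_self hρ)),
    hlim.eventually (eventually_le_nhds (show dedekindZeta_residue K < 2 * dedekindZeta_residue K
      by linarith)), self_mem_nhdsWithin] with s h1 h2 (hs : 1 < s)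
  have hs0 : 0 < s := by linarith
  have hterm : ∀ n : ℕ,
      LSeries.term (fun n => (normCount K n : ℂ)) (s : ℂ) n =
        (((normCount K n : ℝ) * (n : ℝ) ^ (-s) : ℝ) : ℂ) := by
    intro n
    rcases eq_or_ne n 0 with rfl | hn
    · simp [Real.zero_rpow (neg_ne_zero.mpr hs0.ne')]
    · rw [LSeries.term_of_ne_zero hn, Real.rpow_neg (Nat.cast_nonneg n)]
      push_cast
      rw [Complex.ofReal_cpow (Nat.cast_nonneg n), div_eq_mul_inv, Complex.ofReal_natCast]
  have hval : dedekindZeta K (s : ℂ) =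
      ((∑' n : ℕ, (normCount K n : ℝ) * (n : ℝ) ^ (-s) : ℝ) : ℂ) := by
    rw [Complex.ofReal_tsum]
    exact tsum_congr hterm
  have hsum : Summable fun n : ℕ => (normCount K n : ℝ) * (n : ℝ) ^ (-s) := by
    by_contra hns
    rw [hval, tsum_eq_zero_of_not_summable hns] at h1
    simp at h1
    linarith
  have hnn : ∀ n : ℕ, 0 ≤ (normCount K n : ℝ) * (n : ℝ) ^ (-s) := fun n => by positivity
  have hreal : ((((s : ℂ) - 1) * dedekindZeta K s)).re =
      (s - 1) * ∑' n : ℕ, (normCount K n : ℝ) * (n : ℝ) ^ (-s) := by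
    rw [hval, ← Complex.ofReal_one, ← Complex.ofReal_sub, ← Complex.ofReal_mul, Complex.ofReal_re]
  rw [hreal] at h1 h2
  rw [zetaSum_eq_tsum_normCount K hs0, ← ENNReal.ofReal_tsum_of_nonneg hnn hsum,
    ENNReal.toReal_ofReal (tsum_nonneg hnn)]
  exact ⟨ENNReal.ofReal_ne_top, h1, h2⟩

/-! ### Norms and log vectors -/

/-- The absolute norm of an algebraic integer. -/
def elemNorm (x : 𝓞 K) : ℕ := Ideal.absNorm (Ideal.span {x})

variable {K}

lemma elemNorm_pos {x : 𝓞 K} (hx : x ≠ 0) : 0 < elemNorm K x :=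
  Nat.pos_of_ne_zero fun h => hx (by
    rw [elemNorm, Ideal.absNorm_eq_zero_iff, Ideal.span_singleton_eq_bot] at h
    exact h)

variable (K)

lemma sigma_logVec {x : 𝓞 K} (hx : x ≠ 0) :
    sigma K (logVec K x) = Real.log (elemNorm K x) := by
  have hxK : (x : K) ≠ 0 := RingOfIntegers.coe_ne_zero_iff.mpr hx
  have hN : (elemNorm K x : ℝ) = ((|Algebra.norm ℚ (x : K)| : ℚ) : ℝ) := by
    rw [elemNorm, Ideal.absNorm_span_singleton, ← Algebra.coe_norm_int]
    push_cast
    rw [Nat.cast_natAbs, Int.cast_abs]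
  have h := prod_eq_abs_norm (x : K)
  rw [hN, ← h, Real.log_prod (fun w _ => (pow_pos (pos_iff.mpr hxK) _).ne'), sigma_apply]
  simp [logVec, Real.log_pow]

lemma coords_const (c : ℝ) : coords K (fun _ => c) = 0 := by
  have hσ : sigma K (fun _ : InfinitePlace K => c) = c * finrank ℚ K := by
    rw [sigma_apply, ← Finset.sum_mul, sum_mult_real, mul_comm]
  have : proj K (fun _ : InfinitePlace K => c) = 0 := by
    funext w
    rw [proj_apply, hσ, mul_div_assoc, div_self (finrank_pos_real K).ne']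
    simp
  simp [coords, this]

lemma shiftVec_eq (k : ℝ) (x : K) :
    shiftVec K k x = logVec K x - fun _ => k / finrank ℚ K := rfl

lemma bump_shiftVec (s k : ℝ) (x : K) :
    bump K s (shiftVec K k x) = psi s (sigma K (logVec K x) - k) * unitWeight K (logVec K x) := by
  unfold bump unitWeight
  rw [shiftVec_eq, map_sub, map_sub, coords_const, sub_zero]
  congr 2
  rw [sigma_apply K (fun _ : InfinitePlace K => k / (finrank ℚ K : ℝ)), ← Finset.sum_mul,
    sum_mult_real, mul_div_cancel₀ _ (finrank_pos_real K).ne']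

/-! ### The lattice sum at level `k` -/

lemma finite_box (B : ℝ) : {x : 𝓞 K | ∀ w : InfinitePlace K, w (x : K) ≤ B}.Finite := by
  refine ((Embeddings.finite_of_norm_le K ℂ B).preimage
    RingOfIntegers.coe_injective.injOn).subset ?_
  intro x hx
  exact ⟨RingOfIntegers.isIntegral_coe x, (le_iff_le _ _).mp hx⟩

lemma finite_support_testFun (s k : ℝ) :
    {x : 𝓞 K | testFun K s k (x : K) ≠ 0}.Finite := by
  obtain ⟨a, b, -, -, h⟩ := exists_support K
  exact (finite_box K (b * radius K k)).subset fun x hx w => (h s k _ hx w).2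

open scoped Classical in
/-- The test function restricted to an ideal. -/
def idealFun (J : Ideal (𝓞 K)) (s k : ℝ) (x : 𝓞 K) : ℝ :=
  if x ∈ J then testFun K s k (x : K) else 0

lemma idealFun_nonneg (J : Ideal (𝓞 K)) (s k : ℝ) (x : 𝓞 K) : 0 ≤ idealFun K J s k x := by
  unfold idealFun; split_ifs
  · exact testFun_nonneg K _ _ _
  · exact le_rfl

lemma summable_idealFun (J : Ideal (𝓞 K)) (s k : ℝ) : Summable (idealFun K J s k) := by
  refine summable_of_ne_finset_zero (s := (finite_support_testFun K s k).toFinset) fun x hx => ?_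
  simp only [Set.Finite.mem_toFinset, Set.mem_ofPred_eq, not_not] at hx
  simp [idealFun, hx]

/-- The lattice sum over `J` at level `k`. -/
def levelSum (J : Ideal (𝓞 K)) (s k : ℝ) : ℝ := ∑' x : 𝓞 K, idealFun K J s k x

lemma exists_levelSum_compare (J : Ideal (𝓞 K)) (hJ : J ≠ ⊥) :
    ∃ D : ℝ, 0 ≤ D ∧ ∀ s : ℝ, 0 ≤ s → s ≤ 2 → ∀ k : ℝ, 0 ≤ k →
      |levelSum K ⊤ s k - (Ideal.absNorm J : ℝ) * levelSum K J s k| ≤
        D * Real.exp k / radius K k := by
  classical
  have : Finite (𝓞 K ⧸ J) := (Ideal.absNorm_ne_zero_iff J).mp (Ideal.absNorm_eq_zero_iff.not.mpr hJ)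
  have : Fintype (𝓞 K ⧸ J) := Fintype.ofFinite _
  have hcard : Ideal.absNorm J = Fintype.card (𝓞 K ⧸ J) := by
    rw [Ideal.absNorm_apply, Submodule.cardQuot_apply, Nat.card_eq_fintype_card]
  let rep : 𝓞 K ⧸ J → 𝓞 K := fun q => Quotient.out q
  have hrep : ∀ q, Ideal.Quotient.mk J (rep q) = q := fun q => Quotient.out_eq q
  obtain ⟨M, hM0, hM⟩ : ∃ M : ℝ, 0 ≤ M ∧
      ∀ q, ∀ w : InfinitePlace K, w (rep q : K) ≤ M := by
    refine ⟨∑ q, ∑ w : InfinitePlace K, w (rep q : K),
      Finset.sum_nonneg fun q _ => Finset.sum_nonneg fun w _ => apply_nonneg _ _, fun q w => ?_⟩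
    exact le_trans
      (Finset.single_le_sum (f := fun w : InfinitePlace K => w (rep q : K))
        (fun w _ => apply_nonneg _ _) (Finset.mem_univ w))
      (Finset.single_le_sum (f := fun q => ∑ w : InfinitePlace K, w (rep q : K))
        (fun q _ => Finset.sum_nonneg fun w _ => apply_nonneg _ _) (Finset.mem_univ q))
  obtain ⟨a, b, -, hb, hsupp⟩ := exists_support K
  obtain ⟨A, hA, hcount⟩ := exists_count_bound K
  obtain ⟨C, hC, hshift⟩ := exists_shift_bound K
  refine ⟨(Fintype.card (𝓞 K ⧸ J) : ℝ) * (A * (b + M + 1) ^ finrank ℚ K * (C * M)),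
    by positivity, fun s hs0 hs k hk => ?_⟩
  have hR := radius_pos K k
  have hR1 := one_le_radius K hk
  let g : 𝓞 K ⧸ J → 𝓞 K → ℝ := fun q y =>
    if y ∈ J then testFun K s k ((y + rep q : 𝓞 K) : K) else 0
  have hfin : ∀ q, {y : 𝓞 K | g q y ≠ 0}.Finite := by
    intro q
    refine ((finite_support_testFun K s k).preimage
      (f := fun y : 𝓞 K => y + rep q) (add_left_injective _).injOn).subset ?_
    intro y hy
    simp only [Set.mem_ofPred_eq, g] at hy
    simp only [Set.mem_preimage, Set.mem_ofPred_eq]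
    intro h0
    exact hy (by rw [h0]; simp)
  have hgsum : ∀ q, Summable (g q) := fun q =>
    summable_of_ne_finset_zero (s := (hfin q).toFinset) fun y hy => by
      simpa [Set.Finite.mem_toFinset] using hy
  have hdec : levelSum K ⊤ s k = ∑ q, ∑' y, g q y := by
    have h1 : ∀ x, idealFun K ⊤ s k x = ∑ q, g q (x - rep q) := by
      intro x
      rw [Finset.sum_eq_single (Ideal.Quotient.mk J x) (fun q _ hq => ?_)
        (fun h => (h (Finset.mem_univ _)).elim)]
      · have : x - rep (Ideal.Quotient.mk J x) ∈ J := by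
          rw [← Ideal.Quotient.eq, hrep]
        simp [g, idealFun, this]
      · have : x - rep q ∉ J := fun h => hq (by
          rw [← hrep q]; exact ((Ideal.Quotient.eq).mpr h).symm)
        simp [g, this]
    have hs' : ∀ q, Summable fun x => g q (x - rep q) := fun q =>
      (hgsum q).comp_injective (sub_left_injective)
    rw [levelSum, tsum_congr h1, Summable.tsum_finsetSum fun q _ => hs' q]
    exact Finset.sum_congr rfl fun q _ => (Equiv.subRight (rep q)).tsum_eq (g q)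
  have hmul : (Ideal.absNorm J : ℝ) * levelSum K J s k =
      ∑ _q : 𝓞 K ⧸ J, ∑' y, idealFun K J s k y := by
    rw [Finset.sum_const, Finset.card_univ, nsmul_eq_mul, hcard]; rfl
  rw [hdec, hmul, ← Finset.sum_sub_distrib]
  refine (Finset.abs_sum_le_sum_abs _ _).trans ?_
  rw [mul_assoc, mul_div_assoc, ← Finset.card_univ, ← nsmul_eq_mul]
  refine Finset.sum_le_card_nsmul _ _ _ fun q _ => ?_
  rw [← (hgsum q).tsum_sub (summable_idealFun K J s k)]
  set T := (finite_box K ((b + M + 1) * radius K k)).toFinset with hT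
  have hout : ∀ y, y ∉ T → g q y - idealFun K J s k y = 0 := by
    intro y hy
    simp only [hT, Set.Finite.mem_toFinset, Set.mem_ofPred_eq, not_forall, not_le] at hy
    obtain ⟨w, hw⟩ := hy
    have hMR : M ≤ M * radius K k := le_mul_of_one_le_right hM0 hR1
    have h0 : testFun K s k (y : K) = 0 := by
      by_contra h
      have := (hsupp s k _ h w).2
      nlinarith
    have h1 : testFun K s k ((y + rep q : 𝓞 K) : K) = 0 := by
      by_contra h
      have h2 := (hsupp s k _ h w).2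
      have h3 : w (y : K) ≤ w ((y + rep q : 𝓞 K) : K) + w (rep q : K) := by
        have h4 := w.1.add_le ((y + rep q : 𝓞 K) : K) (-(rep q : K))
        rw [map_neg_eq_map, show ((y + rep q : 𝓞 K) : K) + -(rep q : K) = (y : K) by simp] at h4
        exact h4
      have := hM q w
      nlinarith
    simp only [g, idealFun, h0, h1, ite_self, sub_self]
  rw [tsum_eq_sum hout]
  refine (Finset.abs_sum_le_sum_abs _ _).trans ?_
  refine (Finset.sum_le_card_nsmul _ _ (C * M / radius K k) fun y _ => ?_).trans ?_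
  · simp only [g, idealFun]
    split_ifs with hy
    · rw [show ((y + rep q : 𝓞 K) : K) = (y : K) + (rep q : K) by simp]
      exact hshift s hs0 hs k M hM0 _ _ (hM q)
    · simp only [sub_self, abs_zero]; positivity
  rw [nsmul_eq_mul]
  have hcard' : (T.card : ℝ) ≤ A * (b + M + 1) ^ finrank ℚ K * Real.exp k := by
    have h1 : (1 : ℝ) ≤ (b + M + 1) * radius K k :=
      one_le_mul_of_one_le_of_one_le (by linarith) hR1
    refine (hcount _ h1 T fun x hx => by simpa [hT] using hx).trans_eq ?_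
    rw [mul_pow, ← mul_assoc]
    congr 1
    rw [radius, ← Real.exp_nat_mul, mul_div_cancel₀ _ (finrank_pos_real K).ne']
  refine (mul_le_mul_of_nonneg_right hcard' (by positivity)).trans_eq ?_
  ring

/-! ### Unfolding -/

/-- The weighted sum over the nonzero elements of `J`. -/
def weightedSum (J : Ideal (𝓞 K)) (s : ℝ) : ℝ≥0∞ :=
  ∑' x : {x : 𝓞 K // x ∈ J ∧ x ≠ 0},
    ENNReal.ofReal (unitWeight K (logVec K (x.1 : K)) * (elemNorm K x.1 : ℝ) ^ (-s))

lemma hasSum_tent_nat {L : ℝ} (hL : 0 ≤ L) : ∑' k : ℕ, ENNReal.ofReal (tent (L - k)) = 1 := by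
  classical
  have hsupp : ∀ k : ℕ, k ∉ ({⌊L⌋₊, ⌊L⌋₊ + 1} : Finset ℕ) → ENNReal.ofReal (tent (L - k)) = 0 := by
    intro k hk
    simp only [Finset.mem_insert, Finset.mem_singleton, not_or] at hk
    have h1 := Nat.floor_le hL
    have h2 := Nat.lt_floor_add_one L
    rw [tent_eq_zero, ENNReal.ofReal_zero]
    rcases (show k + 1 ≤ ⌊L⌋₊ ∨ ⌊L⌋₊ + 2 ≤ k by omega) with h | h
    · have h' : ((k + 1 : ℕ) : ℝ) ≤ ⌊L⌋₊ := Nat.cast_le.mpr h
      push_cast at h'
      rw [abs_of_nonneg (by linarith)]; linarith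
    · have h' : ((⌊L⌋₊ + 2 : ℕ) : ℝ) ≤ k := Nat.cast_le.mpr h
      push_cast at h'
      rw [abs_of_nonpos (by linarith)]; linarith
  rw [tsum_eq_sum hsupp, Finset.sum_pair (by omega),
    ← ENNReal.ofReal_add (tent_nonneg _) (tent_nonneg _)]
  have h1 := Nat.floor_le hL
  have h2 := Nat.lt_floor_add_one L
  unfold tent
  push_cast
  rw [abs_of_nonneg (by linarith : 0 ≤ L - (⌊L⌋₊ : ℝ)),
    abs_of_nonpos (by linarith : L - ((⌊L⌋₊ : ℝ) + 1) ≤ 0), max_eq_right (by linarith),
    max_eq_right (by linarith)]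
  rw [show 1 - (L - (⌊L⌋₊ : ℝ)) + (1 - -(L - ((⌊L⌋₊ : ℝ) + 1))) = 1 by ring, ENNReal.ofReal_one]

lemma weightedSum_eq_levelSum (J : Ideal (𝓞 K)) (s : ℝ) :
    weightedSum K J s = ∑' k : ℕ, ENNReal.ofReal (Real.exp (-s * k) * levelSum K J s k) := by
  classical
  have h1 : ∀ k : ℕ, ENNReal.ofReal (Real.exp (-s * k) * levelSum K J s k) =
      ∑' x : 𝓞 K, ENNReal.ofReal (Real.exp (-s * k) * idealFun K J s k x) := by
    intro k
    rw [levelSum, ← tsum_mul_left, ENNReal.ofReal_tsum_of_nonneg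
      (fun x => mul_nonneg (Real.exp_pos _).le (idealFun_nonneg K J s k x))
      ((summable_idealFun K J s k).mul_left _)]
  rw [tsum_congr h1, ENNReal.tsum_comm, weightedSum]
  refine (tsum_subtype {x : 𝓞 K | x ∈ J ∧ x ≠ 0}
    fun x => ENNReal.ofReal (unitWeight K (logVec K (x : K)) * (elemNorm K x : ℝ) ^ (-s))).trans ?_
  refine tsum_congr fun x => ?_
  by_cases hx : x ∈ J ∧ x ≠ 0
  · rw [Set.indicator_of_mem (show x ∈ {x : 𝓞 K | x ∈ J ∧ x ≠ 0} from hx)]
    have hxK : (x : K) ≠ 0 := RingOfIntegers.coe_ne_zero_iff.mpr hx.2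
    have hN : (1 : ℝ) ≤ elemNorm K x := Nat.one_le_cast.mpr (elemNorm_pos hx.2)
    have hk : ∀ k : ℕ, ENNReal.ofReal (Real.exp (-s * k) * idealFun K J s k x) =
        ENNReal.ofReal (tent (Real.log (elemNorm K x) - k)) *
          ENNReal.ofReal (unitWeight K (logVec K (x : K)) * (elemNorm K x : ℝ) ^ (-s)) := by
      intro k
      rw [← ENNReal.ofReal_mul (tent_nonneg _)]
      congr 1
      rw [idealFun, if_pos hx.1, testFun, if_neg hxK, bump_shiftVec, psi_eq,
        sigma_logVec K hx.2, Real.rpow_def_of_pos (by linarith)]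
      have : Real.exp (-s * k) * Real.exp (-s * (Real.log (elemNorm K x) - k)) =
          Real.exp (Real.log (elemNorm K x) * -s) := by
        rw [← Real.exp_add]; ring_nf
      rw [← this]; ring
    rw [tsum_congr hk, ENNReal.tsum_mul_right, hasSum_tent_nat (Real.log_nonneg hN), one_mul]
  · rw [Set.indicator_of_notMem (show x ∉ {x : 𝓞 K | x ∈ J ∧ x ≠ 0} from hx)]
    have : ∀ k : ℕ, idealFun K J s k x = 0 := by
      intro k
      by_cases hxJ : x ∈ J
      · have hx0 : x = 0 := not_not.mp fun h => hx ⟨hxJ, h⟩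
        simp [idealFun, testFun, hx0]
      · simp [idealFun, hxJ]
    simp [this]

/-- Every unit is a torsion unit times powers of the fundamental units. -/
def unitsEquiv : torsion K × (Fin (rank K) → ℤ) ≃ (𝓞 K)ˣ :=
  Equiv.ofBijective (fun ζe => (ζe.1 : (𝓞 K)ˣ) * ∏ i, fundSystem K i ^ ζe.2 i)
    ⟨fun a b h => by
      obtain ⟨c, -, hc⟩ := exist_unique_eq_mul_prod K
        ((a.1 : (𝓞 K)ˣ) * ∏ i, fundSystem K i ^ a.2 i)
      exact (hc a rfl).trans (hc b h).symm,
    fun u => (exist_unique_eq_mul_prod K u).exists.imp fun _ h => h.symm⟩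

lemma coords_logVec_unitsEquiv (ζe : torsion K × (Fin (rank K) → ℤ)) :
    coords K (logVec K ((unitsEquiv K ζe : (𝓞 K)ˣ) : K)) = fun i => (ζe.2 i : ℝ) := by
  obtain ⟨ζ, e⟩ := ζe
  set u := unitsEquiv K (ζ, e) with hu
  have hp : proj K (logVec K (u : K)) = logEmbedding K (Additive.ofMul u) := by
    funext w
    rw [proj_apply, sigma_apply, show ∑ v : InfinitePlace K, (mult v : ℝ) * logVec K (u : K) v = 0
      from sum_mult_mul_log u, zero_div, sub_zero]
    rfl
  have hl : logEmbedding K (Additive.ofMul u) = ∑ i, (e i : ℝ) • basisLog K i := by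
    rw [hu, show unitsEquiv K (ζ, e) = (ζ : (𝓞 K)ˣ) * ∏ i, fundSystem K i ^ e i from rfl,
      ofMul_mul, map_add, dirichletUnitTheorem.logEmbedding_eq_zero_iff.mpr ζ.2, zero_add,
      ofMul_prod, map_sum]
    refine Finset.sum_congr rfl fun i _ => ?_
    rw [ofMul_zpow, map_zsmul, basisLog_apply, Int.cast_smul_eq_zsmul]
  rw [coords, LinearMap.comp_apply, hp, hl, LinearEquiv.coe_coe, Basis.equivFun_apply,
    Basis.repr_sum_self]

omit [NumberField K] in
lemma logVec_mul {x y : K} (hx : x ≠ 0) (hy : y ≠ 0) :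
    logVec K (x * y) = logVec K x + logVec K y := by
  funext w
  simp only [logVec, Pi.add_apply, map_mul]
  exact Real.log_mul (pos_iff.mpr hx).ne' (pos_iff.mpr hy).ne'

lemma tsum_unitWeight {g : K} (hg : g ≠ 0) :
    ∑' u : (𝓞 K)ˣ, ENNReal.ofReal (unitWeight K (logVec K ((u : K) * g))) = torsionOrder K := by
  classical
  rw [← (unitsEquiv K).tsum_eq, ENNReal.tsum_prod']
  have hone : ∀ ζ : torsion K, ∑' e : Fin (rank K) → ℤ,
      ENNReal.ofReal (unitWeight K (logVec K ((unitsEquiv K (ζ, e) : K) * g))) = 1 := by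
    intro ζ
    have hw : ∀ e : Fin (rank K) → ℤ, unitWeight K (logVec K ((unitsEquiv K (ζ, e) : K) * g)) =
        ∏ i, tent (coords K (logVec K g) i + e i) := by
      intro e
      unfold unitWeight
      rw [logVec_mul K (coe_ne_zero _) hg, map_add, coords_logVec_unitsEquiv]
      simp [add_comm]
    simp_rw [hw]
    set c := coords K (logVec K g)
    rw [tsum_eq_sum (s := Fintype.piFinset fun i => tentSupp (c i)) fun e he => ?_,
      ← ENNReal.ofReal_sum_of_nonneg fun e _ => Finset.prod_nonneg fun i _ => tent_nonneg _,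
      ← Finset.prod_univ_sum (fun i => tentSupp (c i)) fun i n => tent (c i + (n : ℤ))]
    · simp [sum_tentSupp]
    · simp only [Fintype.mem_piFinset, not_forall] at he
      obtain ⟨i, hi⟩ := he
      rw [Finset.prod_eq_zero (Finset.mem_univ i) (tent_add_eq_zero hi), ENNReal.ofReal_zero]
  rw [tsum_congr hone, ENNReal.tsum_const, mul_one, ENat.card_eq_coe_natCard]
  rfl

/-- Ideals with inverse classes multiply to a principal ideal with a nonzero generator. -/
lemma exists_generator (J I : (Ideal (𝓞 K))⁰)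
    (h : ClassGroup.mk0 I = (ClassGroup.mk0 J)⁻¹) :
    ∃ g : 𝓞 K, g ≠ 0 ∧ g ∈ (J : Ideal (𝓞 K)) ∧
      Ideal.span {g} = (J : Ideal (𝓞 K)) * (I : Ideal (𝓞 K)) := by
  have h1 : ClassGroup.mk0 (J * I) = 1 := by rw [map_mul, h, mul_inv_cancel]
  have h2 := (ClassGroup.mk0_eq_one_iff (I := ((J * I : (Ideal (𝓞 K))⁰) : Ideal (𝓞 K)))
    (J * I).2).mp h1
  obtain ⟨g, hg⟩ := h2.principal
  have hg' : Ideal.span {g} = (J : Ideal (𝓞 K)) * (I : Ideal (𝓞 K)) := hg.symm
  have hne : (J : Ideal (𝓞 K)) * (I : Ideal (𝓞 K)) ≠ 0 :=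
    mul_ne_zero (nonZeroDivisors.coe_ne_zero J) (nonZeroDivisors.coe_ne_zero I)
  refine ⟨g, fun h0 => hne ?_, ?_, hg'⟩
  · rw [← hg', h0]; simp
  · exact Ideal.le_of_dvd (dvd_mul_right (J : Ideal (𝓞 K)) (I : Ideal (𝓞 K)))
      (hg' ▸ Ideal.mem_span_singleton_self g)

lemma exists_cofactor (J : (Ideal (𝓞 K))⁰) {x : 𝓞 K} (hx : x ∈ (J : Ideal (𝓞 K))) (hx0 : x ≠ 0) :
    ∃ I : (Ideal (𝓞 K))⁰, ClassGroup.mk0 I = (ClassGroup.mk0 J)⁻¹ ∧
      Ideal.span {x} = (J : Ideal (𝓞 K)) * (I : Ideal (𝓞 K)) := by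
  obtain ⟨I, hI⟩ := Ideal.dvd_span_singleton.mpr hx
  have hI0 : I ≠ 0 := fun h => hx0 (by
    rw [h, mul_zero, Ideal.zero_eq_bot, Ideal.span_singleton_eq_bot] at hI
    exact hI)
  let I' : (Ideal (𝓞 K))⁰ := ⟨I, mem_nonZeroDivisors_of_ne_zero hI0⟩
  refine ⟨I', eq_inv_of_mul_eq_one_right ?_, hI⟩
  rw [← map_mul (ClassGroup.mk0 (R := 𝓞 K)) J I']
  exact (ClassGroup.mk0_eq_one_iff (I := ((J * I' : (Ideal (𝓞 K))⁰) : Ideal (𝓞 K)))
    (J * I').2).mpr ⟨x, hI.symm⟩

/-- Integral ideals in a class. -/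
abbrev ClassIdeal (C : ClassGroup (𝓞 K)) : Type _ :=
  {I : (Ideal (𝓞 K))⁰ // ClassGroup.mk0 I = C}

lemma weightedSum_eq_classZeta (J : (Ideal (𝓞 K))⁰) {s : ℝ} :
    weightedSum K (J : Ideal (𝓞 K)) s = (torsionOrder K : ℝ≥0∞) *
      (idealTerm K s J * classZeta K (ClassGroup.mk0 J)⁻¹ s) := by
  classical
  choose g hg0 hgmem hgspan using
    fun I : ClassIdeal K (ClassGroup.mk0 J)⁻¹ => exists_generator K J I.1 I.2
  let f : ClassIdeal K (ClassGroup.mk0 J)⁻¹ × (𝓞 K)ˣ →
      {x : 𝓞 K // x ∈ (J : Ideal (𝓞 K)) ∧ x ≠ 0} := fun Iu =>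
    ⟨(Iu.2 : 𝓞 K) * g Iu.1, Ideal.mul_mem_left _ _ (hgmem Iu.1),
      mul_ne_zero Iu.2.ne_zero (hg0 _)⟩
  have hspan : ∀ Iu, Ideal.span {(f Iu).1} = (J : Ideal (𝓞 K)) * (Iu.1.1 : Ideal (𝓞 K)) :=
    fun Iu => (Ideal.span_singleton_mul_left_unit Iu.2.isUnit _).trans (hgspan Iu.1)
  have hf : Function.Bijective f := by
    refine ⟨fun a b h => ?_, fun x => ?_⟩
    · have h1 : a.1 = b.1 := by
        refine Subtype.ext (Subtype.ext ?_)
        have h0 := hspan a
        rw [h, hspan b] at h0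
        exact (mul_left_cancel₀ (nonZeroDivisors.coe_ne_zero J) h0).symm
      refine Prod.ext h1 (Units.ext ?_)
      have h2 : (a.2 : 𝓞 K) * g a.1 = (b.2 : 𝓞 K) * g b.1 := congrArg Subtype.val h
      rw [← h1] at h2
      exact mul_right_cancel₀ (hg0 _) h2
    · obtain ⟨I, hcl, hI⟩ := exists_cofactor K J x.2.1 x.2.2
      obtain ⟨u, hu⟩ := Ideal.span_singleton_eq_span_singleton.mp
        ((hgspan ⟨I, hcl⟩).trans hI.symm)
      refine ⟨(⟨I, hcl⟩, u), Subtype.ext ?_⟩
      show (u : 𝓞 K) * g ⟨I, hcl⟩ = x.1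
      rw [mul_comm]
      exact hu
  rw [weightedSum, ← (Equiv.ofBijective f hf).tsum_eq, ENNReal.tsum_prod', classZeta,
    ← ENNReal.tsum_mul_left, ← ENNReal.tsum_mul_left]
  refine tsum_congr fun I => ?_
  have hterm : ∀ u : (𝓞 K)ˣ,
      ENNReal.ofReal (unitWeight K (logVec K ((f (I, u)).1 : K)) *
        (elemNorm K (f (I, u)).1 : ℝ) ^ (-s)) =
      ENNReal.ofReal (unitWeight K (logVec K ((u : K) * (g I : K)))) *
        (idealTerm K s J * idealTerm K s I.1) := by
    intro u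
    rw [ENNReal.ofReal_mul (unitWeight_nonneg K _)]
    rw [show ((f (I, u)).1 : K) = (u : K) * (g I : K) by simp only [f, map_mul]]
    congr 1
    rw [elemNorm, hspan (I, u), map_mul, Nat.cast_mul,
      Real.mul_rpow (Nat.cast_nonneg _) (Nat.cast_nonneg _),
      ENNReal.ofReal_mul (Real.rpow_nonneg (Nat.cast_nonneg _) _)]
    rfl
  simp only [Equiv.ofBijective_apply]
  rw [tsum_congr hterm, ENNReal.tsum_mul_right,
    tsum_unitWeight K (RingOfIntegers.coe_ne_zero_iff.mpr (hg0 I))]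

/-! ### Main bound -/

lemma levelSum_nonneg (J : Ideal (𝓞 K)) (s k : ℝ) : 0 ≤ levelSum K J s k :=
  tsum_nonneg (idealFun_nonneg K J s k)

lemma exists_compare_one (C : ClassGroup (𝓞 K)) :
    ∃ B : ℝ, ∀ᶠ s : ℝ in 𝓝[>] 1,
      |(classZeta K C s).toReal - (classZeta K 1 s).toReal| ≤ B := by
  obtain ⟨J, hJ⟩ := ClassGroup.mk0_surjective C⁻¹
  have hC : C = (ClassGroup.mk0 J)⁻¹ := by rw [hJ, inv_inv]
  obtain ⟨D, hD, hcmp⟩ := exists_levelSum_compare K (J : Ideal (𝓞 K)) (nonZeroDivisors.ne_zero J.2)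
  set q : ℝ := (Ideal.absNorm (J : Ideal (𝓞 K)) : ℝ)
  have hq : 1 ≤ q := Nat.one_le_cast.mpr (absNorm_pos' K J)
  set w : ℝ := (torsionOrder K : ℝ)
  have hw : 1 ≤ w := Nat.one_le_cast.mpr (torsionOrder_pos K)
  set r : ℝ := Real.exp (-(1 / (finrank ℚ K : ℝ)))
  have hr1 : r < 1 := Real.exp_lt_one_iff.mpr
    (neg_lt_zero.mpr (one_div_pos.mpr (finrank_pos_real K)))
  have hr0 : 0 ≤ r := (Real.exp_pos _).le
  set B0 := D * (∑' k : ℕ, r ^ k)
  refine ⟨q * B0 + q * q * (2 * dedekindZeta_residue K), ?_⟩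
  filter_upwards [eventually_zetaSum_bounds K, self_mem_nhdsWithin,
    eventually_nhdsWithin_of_eventually_nhds (eventually_le_nhds (show (1 : ℝ) < 2 by norm_num))]
    with s hzeta (hs1 : 1 < s) hs2
  obtain ⟨hfin, -, hup⟩ := hzeta
  have htop : ∀ C', classZeta K C' s ≠ ⊤ := fun C' =>
    ne_top_of_le_ne_top hfin (classZeta_le_zetaSum K C' s)
  have key : ∀ (J : (Ideal (𝓞 K))⁰), HasSum (fun k : ℕ => Real.exp (-s * k) *
      levelSum K (J : Ideal (𝓞 K)) s k)
      (w * ((Ideal.absNorm (J : Ideal (𝓞 K)) : ℝ) ^ (-s) *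
        (classZeta K (ClassGroup.mk0 J)⁻¹ s).toReal)) := by
    intro J
    have hnn : ∀ k : ℕ, 0 ≤ Real.exp (-s * k) * levelSum K (J : Ideal (𝓞 K)) s k := fun k =>
      mul_nonneg (Real.exp_pos _).le (levelSum_nonneg K _ _ _)
    have heq := (weightedSum_eq_levelSum K (J : Ideal (𝓞 K)) s).symm.trans
      (weightedSum_eq_classZeta K J (s := s))
    have hne : ∑' k : ℕ, ENNReal.ofReal (Real.exp (-s * k) *
        levelSum K (J : Ideal (𝓞 K)) s k) ≠ ⊤ := by
      rw [heq]
      exact ENNReal.mul_ne_top (ENNReal.natCast_ne_top _)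
        (ENNReal.mul_ne_top ENNReal.ofReal_ne_top (htop _))
    have hs := ENNReal.hasSum_toReal hne
    rw [← ENNReal.tsum_toReal_eq (fun k => ENNReal.ofReal_ne_top), heq] at hs
    simp only [ENNReal.toReal_ofReal (hnn _), ENNReal.toReal_mul, ENNReal.toReal_natCast] at hs
    rwa [idealTerm, ENNReal.toReal_ofReal (Real.rpow_nonneg (Nat.cast_nonneg _) _)] at hs
  have h1 := key 1
  simp only [map_one, inv_one, OneMemClass.coe_one, Ideal.one_eq_top, Ideal.absNorm_top,
    Nat.cast_one, Real.one_rpow, one_mul] at h1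
  have h2 := key J
  rw [← hC] at h2
  set zC := (classZeta K C s).toReal
  set z1 := (classZeta K 1 s).toReal
  have hz : |w * z1 - q * (w * (q ^ (-s) * zC))| ≤ B0 := by
    have hd := (h1.sub (h2.mul_left q))
    have hb : ∀ k : ℕ, ‖Real.exp (-s * k) * levelSum K ⊤ s k -
        q * (Real.exp (-s * k) * levelSum K (J : Ideal (𝓞 K)) s k)‖ ≤ D * r ^ k := by
      intro k
      rw [Real.norm_eq_abs, show Real.exp (-s * k) * levelSum K ⊤ s k -
        q * (Real.exp (-s * k) * levelSum K (J : Ideal (𝓞 K)) s k) = Real.exp (-s * k) *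
          (levelSum K ⊤ s k - q * levelSum K (J : Ideal (𝓞 K)) s k) by ring,
        abs_mul, abs_of_pos (Real.exp_pos _)]
      refine (mul_le_mul_of_nonneg_left (hcmp s (by linarith) hs2 k (Nat.cast_nonneg k))
        (Real.exp_pos _).le).trans ?_
      have hk : Real.exp (-s * k) * Real.exp k / radius K k ≤ r ^ k := by
        rw [← Real.exp_add, radius, ← Real.exp_sub, ← Real.exp_nat_mul]
        refine Real.exp_le_exp.mpr ?_
        have : (0 : ℝ) ≤ (s - 1) * k := mul_nonneg (by linarith) (Nat.cast_nonneg k)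
        rw [show (k : ℝ) * -(1 / (finrank ℚ K : ℝ)) = -((k : ℝ) / finrank ℚ K) by ring]
        linarith
      calc Real.exp (-s * k) * (D * Real.exp k / radius K k)
          = D * (Real.exp (-s * k) * Real.exp k / radius K k) := by ring
        _ ≤ D * r ^ k := mul_le_mul_of_nonneg_left hk hD
    rw [← hd.tsum_eq, ← Real.norm_eq_abs]
    exact tsum_of_norm_bounded
      (by simpa [B0, tsum_mul_left] using
        ((summable_geometric_of_lt_one hr0 hr1).mul_left D).hasSum) hb
  have hqs : q * q ^ (-s) = q ^ (1 - s) := by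
    rw [sub_eq_add_neg, Real.rpow_add (by linarith), Real.rpow_one]
  have hz' : |z1 - q ^ (1 - s) * zC| ≤ B0 := by
    rw [show w * z1 - q * (w * (q ^ (-s) * zC)) = w * (z1 - q * q ^ (-s) * zC) by ring, hqs,
      abs_mul, abs_of_nonneg (by linarith : 0 ≤ w)] at hz
    nlinarith [abs_nonneg (z1 - q ^ (1 - s) * zC)]
  set t := q ^ (s - 1) with ht
  have ht1 : 1 ≤ t := Real.one_le_rpow hq (by linarith)
  have htq : t ≤ q := by
    calc t ≤ q ^ (1 : ℝ) := Real.rpow_le_rpow_of_exponent_le hq (by linarith)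
      _ = q := Real.rpow_one q
  have htinv : t * q ^ (1 - s) = 1 := by
    rw [ht, ← Real.rpow_add (by linarith)]; ring_nf; exact Real.rpow_zero q
  have hz'' : |t * z1 - zC| ≤ q * B0 := by
    have : t * z1 - zC = t * (z1 - q ^ (1 - s) * zC) := by rw [mul_sub, ← mul_assoc, htinv]; ring
    rw [this, abs_mul, abs_of_nonneg (by linarith : 0 ≤ t)]
    exact mul_le_mul htq hz' (abs_nonneg _) (by linarith)
  have hz1 : 0 ≤ z1 := ENNReal.toReal_nonneg
  have hz1' : (s - 1) * z1 ≤ 2 * dedekindZeta_residue K :=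
    (mul_le_mul_of_nonneg_left (ENNReal.toReal_mono hfin (classZeta_le_zetaSum K 1 s))
      (by linarith)).trans hup
  have hsmall : (t - 1) * z1 ≤ q * q * (2 * dedekindZeta_residue K) := by
    have hlog : 0 ≤ Real.log q := Real.log_nonneg hq
    have h3 : t - 1 ≤ q * Real.log q * (s - 1) := by
      have e : t = Real.exp (Real.log q * (s - 1)) := Real.rpow_def_of_pos (by linarith) _
      have h4 := Real.add_one_le_exp (-(Real.log q * (s - 1)))
      rw [Real.exp_neg, ← e] at h4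
      have h5 : t * (1 - Real.log q * (s - 1)) ≤ 1 := by
        calc t * (1 - Real.log q * (s - 1)) ≤ t * t⁻¹ :=
              mul_le_mul_of_nonneg_left (by linarith) (by linarith)
          _ = 1 := mul_inv_cancel₀ (by linarith)
      have h6 : t * (Real.log q * (s - 1)) ≤ q * (Real.log q * (s - 1)) :=
        mul_le_mul_of_nonneg_right htq (by nlinarith)
      linarith
    have h7 : Real.log q ≤ q := (Real.log_le_sub_one_of_pos (by linarith)).trans (by linarith)
    calc (t - 1) * z1 ≤ q * Real.log q * (s - 1) * z1 := mul_le_mul_of_nonneg_right h3 hz1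
      _ = q * Real.log q * ((s - 1) * z1) := by ring
      _ ≤ q * q * (2 * dedekindZeta_residue K) :=
          mul_le_mul (mul_le_mul_of_nonneg_left h7 (by linarith)) hz1'
            (mul_nonneg (by linarith) hz1) (by positivity)
  calc |zC - z1| = |-(t * z1 - zC) + (t - 1) * z1| := by ring_nf
    _ ≤ |t * z1 - zC| + |(t - 1) * z1| := by rw [← abs_neg (t * z1 - zC)]; exact abs_add_le _ _
    _ ≤ _ := add_le_add hz'' (by rwa [abs_of_nonneg (mul_nonneg (by linarith) hz1)])

/-- A combination of class zeta functions with coefficients summing to zero is bounded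
as `s → 1+`. -/
theorem exists_classSum_bound (c : ClassGroup (𝓞 K) → ℂ) (hc : ∑ C, c C = 0) :
    ∃ B : ℝ, ∀ᶠ s : ℝ in 𝓝[>] 1, ‖∑ C, c C * ((classZeta K C s).toReal : ℂ)‖ ≤ B := by
  choose B hB using exists_compare_one K
  refine ⟨∑ C, ‖c C‖ * B C, ?_⟩
  filter_upwards [eventually_all.mpr hB] with s hs
  have e : ∑ C, c C * ((classZeta K C s).toReal : ℂ) =
      ∑ C, c C * (((classZeta K C s).toReal - (classZeta K 1 s).toReal : ℝ) : ℂ) := by
    simp only [Complex.ofReal_sub, mul_sub, Finset.sum_sub_distrib, ← Finset.sum_mul, hc,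
      zero_mul, sub_zero]
  rw [e]
  refine (norm_sum_le _ _).trans (Finset.sum_le_sum fun C _ => ?_)
  rw [norm_mul, Complex.norm_real, Real.norm_eq_abs]
  exact mul_le_mul_of_nonneg_left (hs C) (norm_nonneg _)

end Fermat.Agent.ClassLSeries
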