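import Mathlib.NumberTheory.NumberField.Basic
import Mathlib.RingTheory.DedekindDomain.Ideal.Lemmas
import Mathlib.Analysis.SpecificLimits.Normed
import Mathlib.Analysis.Normed.Group.Tannery
import Mathlib.Analysis.Normed.Group.Indicator
import Mathlib.RingTheory.DedekindDomain.Factorization

/-!
# Euler products over prime ideals

Euler products over the prime ideals of a number field, for completely multiplicative functions.
-/

set_option autoImplicit false

open Filter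
open scoped NumberField nonZeroDivisors Topology

noncomputable section

namespace Fermat.Agent.ClassLSeries

variable (K : Type*) [Field K] [NumberField K]

/-- The nonzero prime ideals, as elements of the monoid of nonzero ideals. -/
abbrev PrimeIdeal : Type _ := {P : (Ideal (𝓞 K))⁰ // Prime (P : Ideal (𝓞 K))}

variable {K}

/-- All prime divisors of `I` lie in `S`. -/
def SuppIn (S : Finset (PrimeIdeal K)) (I : (Ideal (𝓞 K))⁰) : Prop :=
  ∀ P : PrimeIdeal K, (P.1 : Ideal (𝓞 K)) ∣ (I : Ideal (𝓞 K)) → P ∈ S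

/-- A prime ideal, as a `PrimeIdeal`. -/
def primeOfDvd {P : Ideal (𝓞 K)} (hP : Prime P) : PrimeIdeal K :=
  ⟨⟨P, mem_nonZeroDivisors_of_ne_zero hP.ne_zero⟩, hP⟩

omit [NumberField K] in
lemma suppIn_one (S : Finset (PrimeIdeal K)) : SuppIn S 1 := fun P hP =>
  (P.2.not_isUnit (isUnit_of_dvd_one hP)).elim

lemma eq_one_of_suppIn_empty {I : (Ideal (𝓞 K))⁰} (h : SuppIn (∅ : Finset (PrimeIdeal K)) I) :
    I = 1 := by
  by_contra hI
  have hnu : ¬IsUnit (I : Ideal (𝓞 K)) := fun hu =>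
    hI (Subtype.ext (by simpa [Ideal.one_eq_top] using Ideal.isUnit_iff.mp hu))
  obtain ⟨P, hP, hPI⟩ := WfDvdMonoid.exists_irreducible_factor hnu (nonZeroDivisors.coe_ne_zero I)
  simpa using h (primeOfDvd (UniqueFactorizationMonoid.irreducible_iff_prime.mp hP)) hPI

lemma suppIn_pow_mul [DecidableEq (PrimeIdeal K)] {S : Finset (PrimeIdeal K)} {P : PrimeIdeal K}
    (n : ℕ) {I : (Ideal (𝓞 K))⁰} (hI : SuppIn S I) : SuppIn (insert P S) (P.1 ^ n * I) := by
  intro Q hQ
  rw [Submonoid.coe_mul, SubmonoidClass.coe_pow] at hQ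
  rcases Q.2.dvd_or_dvd hQ with h | h
  · have h1 : (Q.1 : Ideal (𝓞 K)) = (P.1 : Ideal (𝓞 K)) :=
      associated_iff_eq.mp (Q.2.associated_of_dvd P.2 (Q.2.dvd_of_dvd_pow h))
    exact Finset.mem_insert.mpr (Or.inl (Subtype.ext (Subtype.ext h1)))
  · exact Finset.mem_insert_of_mem (hI Q h)

lemma bijective_pow_mul [DecidableEq (PrimeIdeal K)] (S : Finset (PrimeIdeal K))
    (P : PrimeIdeal K) (hP : P ∉ S) :
    Function.Bijective
      (fun nI : ℕ × {I : (Ideal (𝓞 K))⁰ // SuppIn S I} =>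
        (⟨P.1 ^ nI.1 * nI.2.1, suppIn_pow_mul nI.1 nI.2.2⟩ :
          {I : (Ideal (𝓞 K))⁰ // SuppIn (insert P S) I})) := by
  have hP0 : (P.1 : Ideal (𝓞 K)) ≠ 0 := P.2.ne_zero
  refine ⟨?_, ?_⟩
  · rintro ⟨n, I⟩ ⟨m, J⟩ h
    have h' : (P.1 : Ideal (𝓞 K)) ^ n * (I.1 : Ideal (𝓞 K)) =
        (P.1 : Ideal (𝓞 K)) ^ m * (J.1 : Ideal (𝓞 K)) := by
      simpa using congrArg (fun x => ((x.1 : (Ideal (𝓞 K))⁰) : Ideal (𝓞 K))) h
    have key : ∀ (n m : ℕ) (I J : {I : (Ideal (𝓞 K))⁰ // SuppIn S I}),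
        (P.1 : Ideal (𝓞 K)) ^ n * (I.1 : Ideal (𝓞 K)) =
          (P.1 : Ideal (𝓞 K)) ^ m * (J.1 : Ideal (𝓞 K)) → n ≤ m → n = m := by
      intro n m I J h hnm
      by_contra hne
      obtain ⟨k, rfl⟩ := Nat.exists_eq_add_of_lt (lt_of_le_of_ne hnm hne)
      rw [show n + k + 1 = n + (k + 1) by omega, pow_add, mul_assoc] at h
      have h2 := mul_left_cancel₀ (pow_ne_zero n hP0) h
      exact hP (I.2 P (h2 ▸ dvd_mul_of_dvd_left (dvd_pow_self _ (Nat.succ_ne_zero k)) _))
    have hnm : n = m := by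
      rcases le_total n m with hle | hle
      · exact key n m I J h' hle
      · exact (key m n J I h'.symm hle).symm
    subst hnm
    simp [Subtype.ext_iff, mul_left_cancel₀ (pow_ne_zero n hP0) h']
  · rintro ⟨I, hI⟩
    obtain ⟨n, J, hnd, hIJ⟩ :=
      WfDvdMonoid.max_power_factor (nonZeroDivisors.coe_ne_zero I) P.2.irreducible
    have hJ0 : J ≠ 0 := fun h => nonZeroDivisors.coe_ne_zero I (by rw [hIJ, h, mul_zero])
    refine ⟨(n, ⟨⟨J, mem_nonZeroDivisors_of_ne_zero hJ0⟩, fun Q hQ => ?_⟩),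
      Subtype.ext (Subtype.ext ?_)⟩
    · rcases Finset.mem_insert.mp (hI Q (hIJ ▸ hQ.mul_left _)) with rfl | h
      · exact (hnd hQ).elim
      · exact h
    · simpa using hIJ.symm

/-- Finite Euler products. -/
theorem hasSum_suppIn {𝕜 : Type*} [NormedField 𝕜] [CompleteSpace 𝕜]
    (f : (Ideal (𝓞 K))⁰ →* 𝕜) (S : Finset (PrimeIdeal K))
    (hf : ∀ P ∈ S, ‖f P.1‖ < 1) :
    Summable (fun I : {I : (Ideal (𝓞 K))⁰ // SuppIn S I} => ‖f I.1‖) ∧
      HasSum (fun I : {I : (Ideal (𝓞 K))⁰ // SuppIn S I} => f I.1)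
        (∏ P ∈ S, (1 - f P.1)⁻¹) := by
  classical
  induction S using Finset.induction_on with
  | empty =>
    have : Subsingleton {I : (Ideal (𝓞 K))⁰ // SuppIn (∅ : Finset (PrimeIdeal K)) I} :=
      ⟨fun I J => Subtype.ext
        ((eq_one_of_suppIn_empty I.2).trans (eq_one_of_suppIn_empty J.2).symm)⟩
    refine ⟨.of_finite, ?_⟩
    rw [Finset.prod_empty]
    have h1 : f (⟨1, suppIn_one _⟩ : {I : (Ideal (𝓞 K))⁰ //
        SuppIn (∅ : Finset (PrimeIdeal K)) I}).1 = 1 := map_one f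
    rw [← h1]
    exact hasSum_single (f := fun I : {I : (Ideal (𝓞 K))⁰ //
        SuppIn (∅ : Finset (PrimeIdeal K)) I} => f I.1) ⟨1, suppIn_one _⟩
      fun J hJ => (hJ (Subsingleton.elim _ _)).elim
  | insert P S hP ih =>
    obtain ⟨hn, hs⟩ := ih fun Q hQ => hf Q (Finset.mem_insert_of_mem hQ)
    have hfP := hf P (Finset.mem_insert_self P S)
    let e := Equiv.ofBijective _ (bijective_pow_mul S P hP)
    have hcomp : (fun I : {I : (Ideal (𝓞 K))⁰ // SuppIn (insert P S) I} => f I.1) ∘ e =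
        fun nI => f P.1 ^ nI.1 * f nI.2.1 := by
      funext nI
      show f (P.1 ^ nI.1 * nI.2.1) = _
      rw [map_mul, map_pow]
    have hg : Summable fun n : ℕ => ‖f P.1 ^ n‖ := by
      simpa [norm_pow] using summable_geometric_of_lt_one (norm_nonneg _) hfP
    refine ⟨?_, ?_⟩
    · rw [← e.summable_iff]
      refine (hg.mul_norm hn).congr fun nI => ?_
      have := congrFun hcomp nI
      simp only [Function.comp_apply] at this ⊢
      rw [this]
    · rw [← e.hasSum_iff, hcomp, Finset.prod_insert hP]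
      exact HasSum.mul (f := fun n : ℕ => f P.1 ^ n)
        (g := fun I : {I : (Ideal (𝓞 K))⁰ // SuppIn S I} => f I.1)
        (hasSum_geometric_of_norm_lt_one hfP) hs
        (summable_mul_of_summable_norm (f := fun n : ℕ => f P.1 ^ n)
          (g := fun I : {I : (Ideal (𝓞 K))⁰ // SuppIn S I} => f I.1) hg hn)

/-- Euler product. -/
theorem tendsto_euler {𝕜 : Type*} [NormedField 𝕜] [CompleteSpace 𝕜]
    (f : (Ideal (𝓞 K))⁰ →* 𝕜) (hf : ∀ P : PrimeIdeal K, ‖f P.1‖ < 1)
    (hsum : Summable fun I => ‖f I‖) :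
    Tendsto (fun S : Finset (PrimeIdeal K) => ∏ P ∈ S, (1 - f P.1)⁻¹) atTop (𝓝 (∑' I, f I)) := by
  classical
  have hS : ∀ S : Finset (PrimeIdeal K),
      ∏ P ∈ S, (1 - f P.1)⁻¹ = ∑' I, {I | SuppIn S I}.indicator f I := fun S =>
    ((hasSum_suppIn f S fun P _ => hf P).2.tsum_eq.symm).trans (tsum_subtype {I | SuppIn S I} f)
  simp_rw [hS]
  refine tendsto_tsum_of_dominated_convergence hsum (fun I => ?_)
    (Eventually.of_forall fun S I => norm_indicator_le_norm_self _ _)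
  refine tendsto_const_nhds.congr' ?_
  have hfin : {P : PrimeIdeal K | (P.1 : Ideal (𝓞 K)) ∣ (I : Ideal (𝓞 K))}.Finite := by
    refine ((Ideal.finite_factors (nonZeroDivisors.coe_ne_zero I)).image
      (fun v => v.asIdeal)).preimage
      (f := fun P : PrimeIdeal K => (P.1 : Ideal (𝓞 K)))
      (fun a _ b _ h => Subtype.ext (Subtype.ext h)) |>.subset ?_
    intro P hP
    refine ⟨⟨P.1, Ideal.isPrime_of_prime P.2, P.2.ne_zero⟩, ?_, rfl⟩
    exact hP
  filter_upwards [eventually_ge_atTop hfin.toFinset] with S hS'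
  rw [Set.indicator_of_mem]
  intro P hP
  exact hS' (hfin.mem_toFinset.mpr hP)

end Fermat.Agent.ClassLSeries
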