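import Fermat.Agent.ClassLSeries.ClassZeta
import Fermat.Agent.ClassLSeries.Euler

/-!
# Class group characters at primes of degree one

The analytic core: the degree one primes where a nontrivial class group character is nontrivial
cannot all split into `p ≥ 3` primes of the same norm in a fixed number field.
-/

set_option autoImplicit false

open NumberField Finset Filter
open scoped NumberField nonZeroDivisors ENNReal Topology

noncomputable section

namespace Fermat.Agent.ClassLSeries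

variable {K : Type*} [Field K] [NumberField K]

/-- The absolute norm of a prime ideal. -/
def pnorm (P : PrimeIdeal K) : ℕ := Ideal.absNorm ((P.1 : (Ideal (𝓞 K))⁰) : Ideal (𝓞 K))

lemma two_le_pnorm (P : PrimeIdeal K) : 2 ≤ pnorm P := by
  have h0 : pnorm P ≠ 0 := (absNorm_pos' K P.1).ne'
  have h1 : pnorm P ≠ 1 := fun h => P.2.not_isUnit (by
    rw [Ideal.isUnit_iff]; exact Ideal.absNorm_eq_one_iff.mp h)
  omega

/-- The norm term `N I ^ (-s)` as a multiplicative map. -/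
def normTerm (s : ℝ) : (Ideal (𝓞 K))⁰ →* ℝ where
  toFun I := (Ideal.absNorm (I : Ideal (𝓞 K)) : ℝ) ^ (-s)
  map_one' := by simp
  map_mul' I J := by
    rw [Submonoid.coe_mul, map_mul, Nat.cast_mul,
      Real.mul_rpow (Nat.cast_nonneg _) (Nat.cast_nonneg _)]

lemma normTerm_nonneg (s : ℝ) (I : (Ideal (𝓞 K))⁰) : 0 ≤ normTerm s I :=
  Real.rpow_nonneg (Nat.cast_nonneg _) _

lemma ofReal_normTerm (s : ℝ) (I : (Ideal (𝓞 K))⁰) :
    ENNReal.ofReal (normTerm s I) = idealTerm K s I := rfl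

lemma normTerm_prime_eq (s : ℝ) (P : PrimeIdeal K) :
    normTerm s P.1 = (pnorm P : ℝ) ^ (-s) := rfl

lemma normTerm_prime_pos (s : ℝ) (P : PrimeIdeal K) : 0 < normTerm s P.1 :=
  Real.rpow_pos_of_pos (Nat.cast_pos.mpr (absNorm_pos' K P.1)) _

lemma normTerm_prime_le_half {s : ℝ} (hs : 1 ≤ s) (P : PrimeIdeal K) :
    normTerm s P.1 ≤ 1 / 2 := by
  have h2 : (2 : ℝ) ≤ (pnorm P : ℝ) := Nat.ofNat_le_cast.mpr (two_le_pnorm P)
  rw [normTerm_prime_eq]
  calc (pnorm P : ℝ) ^ (-s) ≤ (pnorm P : ℝ) ^ (-1 : ℝ) :=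
        Real.rpow_le_rpow_of_exponent_le (by linarith) (by linarith)
    _ ≤ 1 / 2 := by rw [Real.rpow_neg_one, one_div]; exact inv_anti₀ (by norm_num) h2

lemma summable_normTerm {s : ℝ} (h : zetaSum K s ≠ ⊤) :
    Summable (fun I : (Ideal (𝓞 K))⁰ => normTerm s I) := by
  have := ENNReal.summable_toReal h
  refine this.congr fun I => ?_
  rw [← ofReal_normTerm, ENNReal.toReal_ofReal (normTerm_nonneg s I)]

lemma tsum_normTerm (s : ℝ) :
    (zetaSum K s).toReal = ∑' I : (Ideal (𝓞 K))⁰, normTerm s I := by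
  rw [zetaSum, ENNReal.tsum_toReal_eq (f := fun I => idealTerm K s I) fun I =>
    ENNReal.ofReal_ne_top]
  exact tsum_congr fun I => ENNReal.toReal_ofReal (normTerm_nonneg s I)

lemma prod_le_zetaSum {s : ℝ} (hs : 1 ≤ s) (h : zetaSum K s ≠ ⊤) (S : Finset (PrimeIdeal K)) :
    ∏ P ∈ S, (1 - normTerm s P.1)⁻¹ ≤ (zetaSum K s).toReal := by
  obtain ⟨-, hsum⟩ := hasSum_suppIn (normTerm (K := K) s) S fun P _ => by
    rw [Real.norm_eq_abs, abs_of_nonneg (normTerm_nonneg s _)]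
    linarith [normTerm_prime_le_half hs P]
  rw [← hsum.tsum_eq, tsum_normTerm]
  exact Summable.tsum_subtype_le (fun I => normTerm s I) {I | SuppIn S I}
    (fun I => normTerm_nonneg s I) (summable_normTerm h)

/-! ### Primes of higher degree -/

lemma exists_prime_dvd_span (P : PrimeIdeal K) :
    ∃ l : ℕ, l.Prime ∧ (P.1 : Ideal (𝓞 K)) ∣ Ideal.span {(l : 𝓞 K)} ∧
      (¬(pnorm P).Prime → l ^ 2 ≤ pnorm P) ∧ l ≤ pnorm P := by
  have hP : (P.1 : Ideal (𝓞 K)).IsPrime := Ideal.isPrime_of_prime P.2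
  have hmem : (pnorm P : 𝓞 K) ∈ (P.1 : Ideal (𝓞 K)) := Ideal.absNorm_mem _
  have hne : pnorm P ≠ 0 := by linarith [two_le_pnorm P]
  rw [← Nat.prod_primeFactorsList hne, Nat.cast_list_prod] at hmem
  have : ∃ l ∈ (pnorm P).primeFactorsList, (l : 𝓞 K) ∈ (P.1 : Ideal (𝓞 K)) := by
    by_contra hcon
    push Not at hcon
    have : ∀ L : List ℕ, (∀ l ∈ L, (l : 𝓞 K) ∉ (P.1 : Ideal (𝓞 K))) →
        (L.map (fun n : ℕ => (n : 𝓞 K))).prod ∉ (P.1 : Ideal (𝓞 K)) := by
      intro L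
      induction L with
      | nil => intro _; simpa using (Ideal.ne_top_iff_one _).mp hP.ne_top
      | cons a L ih =>
        intro hL hmem
        rw [List.map_cons, List.prod_cons] at hmem
        exact (hP.mem_or_mem hmem).elim (hL a List.mem_cons_self)
          (ih fun l hl => hL l (List.mem_cons_of_mem _ hl))
    exact this _ hcon hmem
  obtain ⟨l, hl, hlP⟩ := this
  have hlp := Nat.prime_of_mem_primeFactorsList hl
  have hdvd : (P.1 : Ideal (𝓞 K)) ∣ Ideal.span {(l : 𝓞 K)} :=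
    Ideal.dvd_span_singleton.mpr hlP
  refine ⟨l, hlp, hdvd, fun hnp => ?_,
    Nat.le_of_dvd (Nat.pos_of_ne_zero hne) (Nat.dvd_of_mem_primeFactorsList hl)⟩
  have hN : pnorm P ∣ l ^ Module.finrank ℚ K := by
    have := map_dvd Ideal.absNorm hdvd
    rw [Ideal.absNorm_span_singleton, ← map_natCast (algebraMap ℤ (𝓞 K)),
      Algebra.norm_algebraMap, RingOfIntegers.rank, Int.natAbs_pow, Int.natAbs_natCast] at this
    exact this
  obtain ⟨f, -, hf⟩ := (Nat.dvd_prime_pow hlp).mp hN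
  have h2 := two_le_pnorm P
  rcases f with _ | _ | f
  · simp [hf] at h2
  · exact (hnp (by simpa [hf] using hlp)).elim
  · rw [hf]
    exact Nat.pow_le_pow_right hlp.pos (by omega)

lemma card_over_le {l : ℕ} (hl : l.Prime) (T : Finset (PrimeIdeal K))
    (hT : ∀ P ∈ T, (P.1 : Ideal (𝓞 K)) ∣ Ideal.span {(l : 𝓞 K)}) :
    T.card ≤ Module.finrank ℚ K := by
  classical
  have hinj : Set.InjOn (fun P : PrimeIdeal K => (P.1 : Ideal (𝓞 K))) T :=
    fun a _ b _ h => Subtype.ext (Subtype.ext h)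
  have hprod : (∏ P ∈ T, (P.1 : Ideal (𝓞 K))) ∣ Ideal.span {(l : 𝓞 K)} := by
    rw [← Finset.prod_image (f := fun I : Ideal (𝓞 K) => I) hinj]
    refine Finset.prod_primes_dvd _ (fun I hI => ?_) (fun I hI => ?_)
    · obtain ⟨P, -, rfl⟩ := Finset.mem_image.mp hI; exact P.2
    · obtain ⟨P, hP, rfl⟩ := Finset.mem_image.mp hI; exact hT P hP
  have hN := map_dvd Ideal.absNorm hprod
  rw [map_prod, Ideal.absNorm_span_singleton, ← map_natCast (algebraMap ℤ (𝓞 K)),
    Algebra.norm_algebraMap, RingOfIntegers.rank, Int.natAbs_pow, Int.natAbs_natCast] at hN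
  have hle : l ^ T.card ∣ l ^ Module.finrank ℚ K := by
    refine dvd_trans ?_ hN
    rw [← Finset.prod_const]
    refine Finset.prod_dvd_prod_of_dvd _ _ fun P hP => ?_
    have hPN : pnorm P ∣ l ^ Module.finrank ℚ K :=
      dvd_trans (Finset.dvd_prod_of_mem (fun P : PrimeIdeal K => pnorm P) hP) hN
    obtain ⟨f, -, hf⟩ := (Nat.dvd_prime_pow hl).mp hPN
    have h2 := two_le_pnorm P
    rcases f with _ | f
    · simp [hf] at h2
    · show l ∣ pnorm P
      rw [hf]
      exact dvd_pow_self l (Nat.succ_ne_zero f)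
  exact (Nat.pow_dvd_pow_iff_le_right hl.one_lt).mp hle

/-- Euler factors of primes of non-prime norm or with norm in a finite set are bounded. -/
lemma exists_bad_bound (S₀ : Finset ℕ) :
    ∃ B : ℝ, ∀ s : ℝ, 1 ≤ s → ∀ T : Finset (PrimeIdeal K),
      (∀ P ∈ T, ¬(pnorm P).Prime ∨ pnorm P ∈ S₀) →
      ∏ P ∈ T, (1 - normTerm s P.1)⁻¹ ≤ B := by
  classical
  have hfin : {P : PrimeIdeal K | pnorm P ∈ S₀}.Finite := by
    have h1 : (⋃ n ∈ S₀, {I : Ideal (𝓞 K) | Ideal.absNorm I = n}).Finite :=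
      S₀.finite_toSet.biUnion fun n _ => Ideal.finite_setOfPred_absNorm_eq n
    refine (h1.preimage (f := fun P : PrimeIdeal K => (P.1 : Ideal (𝓞 K)))
      (fun a _ b _ h => Subtype.ext (Subtype.ext h))).subset fun P hP => ?_
    exact Set.mem_biUnion hP rfl
  have hsum2 : Summable fun n : ℕ => ((n : ℝ) ^ 2)⁻¹ := Real.summable_nat_pow_inv.mpr one_lt_two
  set c : ℝ := (Module.finrank ℚ K : ℝ) * ∑' n : ℕ, ((n : ℝ) ^ 2)⁻¹
  refine ⟨Real.exp (2 * (hfin.toFinset.card + c)), fun s hs T hT => ?_⟩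
  have hexp : ∀ P : PrimeIdeal K, (1 - normTerm s P.1)⁻¹ ≤ Real.exp (2 * normTerm s P.1) := by
    intro P
    have h1 := normTerm_prime_le_half hs P
    have h2 := normTerm_prime_pos s P
    refine le_trans ?_ (Real.add_one_le_exp _)
    rw [inv_le_iff_one_le_mul₀ (by linarith)]
    nlinarith
  refine (Finset.prod_le_prod (fun P _ => inv_nonneg.mpr (by
    linarith [normTerm_prime_le_half hs P])) (fun P _ => hexp P)).trans ?_
  rw [← Real.exp_sum, ← Finset.mul_sum]
  refine Real.exp_le_exp.mpr (mul_le_mul_of_nonneg_left ?_ (by norm_num))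
  rw [← Finset.sum_filter_add_sum_filter_not T (fun P => pnorm P ∈ S₀)]
  refine add_le_add ?_ ?_
  · refine (Finset.sum_le_card_nsmul _ _ 1
      (fun P _ => by linarith [normTerm_prime_le_half hs P])).trans ?_
    rw [nsmul_one]
    exact Nat.cast_le.mpr (Finset.card_le_card fun P hP => by
      simp only [Finset.mem_filter] at hP
      simpa using hP.2)
  · choose f hfp hfd hf2 hfle using exists_prime_dvd_span (K := K)
    set T' := T.filter fun P => pnorm P ∉ S₀
    calc ∑ P ∈ T', normTerm s P.1 ≤ ∑ P ∈ T', ((f P : ℝ) ^ 2)⁻¹ := by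
          refine Finset.sum_le_sum fun P hP => ?_
          obtain ⟨hPT, hPS⟩ := Finset.mem_filter.mp hP
          have h1 : ((f P : ℝ) ^ 2) ≤ (pnorm P : ℝ) := by
            exact_mod_cast hf2 P ((hT P hPT).resolve_right hPS)
          have h0 : (0 : ℝ) < (f P : ℝ) ^ 2 := pow_pos (Nat.cast_pos.mpr (hfp P).pos) 2
          refine le_trans ?_ (inv_anti₀ h0 h1)
          rw [normTerm_prime_eq, ← Real.rpow_neg_one]
          exact Real.rpow_le_rpow_of_exponent_le
            (Nat.one_le_cast.mpr (by linarith [two_le_pnorm P])) (by linarith)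
      _ = ∑ l ∈ T'.image f, ∑ P ∈ T' with f P = l, ((f P : ℝ) ^ 2)⁻¹ :=
          (Finset.sum_fiberwise_of_maps_to (fun P hP => Finset.mem_image_of_mem f hP) _).symm
      _ ≤ ∑ l ∈ T'.image f, (Module.finrank ℚ K : ℝ) * ((l : ℝ) ^ 2)⁻¹ := by
          refine Finset.sum_le_sum fun l hl => ?_
          obtain ⟨P₀, -, rfl⟩ := Finset.mem_image.mp hl
          refine (Finset.sum_le_card_nsmul _ _ (((f P₀ : ℝ) ^ 2)⁻¹) fun P hP => ?_).trans ?_
          · rw [(Finset.mem_filter.mp hP).2]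
          · rw [nsmul_eq_mul]
            refine mul_le_mul_of_nonneg_right (Nat.cast_le.mpr ?_) (by positivity)
            refine card_over_le (hfp P₀) _ fun P hP => ?_
            rw [← (Finset.mem_filter.mp hP).2]
            exact hfd P
      _ = (Module.finrank ℚ K : ℝ) * ∑ l ∈ T'.image f, ((l : ℝ) ^ 2)⁻¹ := by rw [Finset.mul_sum]
      _ ≤ c := mul_le_mul_of_nonneg_left
          (hsum2.sum_le_tsum _ fun n _ => by positivity) (Nat.cast_nonneg _)

/-! ### The core -/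

/-- `χ (class of I) * N I ^ (-s)`. -/
def lTerm (χ : ClassGroup (𝓞 K) →* ℂ) (s : ℝ) : (Ideal (𝓞 K))⁰ →* ℂ :=
  (χ.comp ClassGroup.mk0) *
    ((Complex.ofRealHom.toMonoidHom).comp (normTerm (K := K) s))

lemma lTerm_apply (χ : ClassGroup (𝓞 K) →* ℂ) (s : ℝ) (I : (Ideal (𝓞 K))⁰) :
    lTerm χ s I = χ (ClassGroup.mk0 I) * (normTerm s I : ℂ) := rfl

lemma norm_lTerm {χ : ClassGroup (𝓞 K) →* ℂ} (hχ : ∀ C, ‖χ C‖ = 1) (s : ℝ)
    (I : (Ideal (𝓞 K))⁰) : ‖lTerm χ s I‖ = normTerm s I := by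
  rw [lTerm_apply, norm_mul, hχ, one_mul, Complex.norm_real, Real.norm_eq_abs,
    abs_of_nonneg (normTerm_nonneg s I)]

lemma tsum_lTerm {χ : ClassGroup (𝓞 K) →* ℂ} (hχ : ∀ C, ‖χ C‖ = 1) {s : ℝ}
    (h : zetaSum K s ≠ ⊤) :
    ∑' I, lTerm χ s I = ∑ C, χ C * ((classZeta K C s).toReal : ℂ) := by
  classical
  have hsum : Summable (lTerm χ s) :=
    Summable.of_norm ((summable_normTerm h).congr fun I => (norm_lTerm hχ s I).symm)
  set e := Equiv.sigmaFiberEquiv fun I : (Ideal (𝓞 K))⁰ => ClassGroup.mk0 I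
  rw [← e.tsum_eq, Summable.tsum_sigma (f := fun x => lTerm χ s (e x))
    (e.summable_iff.mpr hsum), tsum_fintype]
  refine Finset.sum_congr rfl fun C _ => ?_
  have : ∀ I : {I : (Ideal (𝓞 K))⁰ // ClassGroup.mk0 I = C},
      lTerm χ s (e ⟨C, I⟩) = χ C * (normTerm s I.1 : ℂ) := by
    intro I
    show lTerm χ s I.1 = _
    rw [lTerm_apply, I.2]
  rw [tsum_congr this, tsum_mul_left, classZeta,
    ENNReal.tsum_toReal_eq
      (f := fun I : {I : (Ideal (𝓞 K))⁰ // ClassGroup.mk0 I = C} => idealTerm K s I.1)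
      fun I => ENNReal.ofReal_ne_top, Complex.ofReal_tsum]
  congr 1
  refine tsum_congr fun I => ?_
  rw [idealTerm, ENNReal.toReal_ofReal (Real.rpow_nonneg (Nat.cast_nonneg _) _)]
  rfl

lemma norm_inv_ge {z : ℂ} (hz : ‖z‖ = 1) {x : ℝ} (hx0 : 0 ≤ x) (hx : x ≤ 1 / 2) :
    1 - x ≤ ‖(1 - z * (x : ℂ))⁻¹‖ := by
  have hzx : ‖z * (x : ℂ)‖ = x := by
    rw [norm_mul, hz, one_mul, Complex.norm_real, Real.norm_eq_abs, abs_of_nonneg hx0]
  have h1 : ‖1 - z * (x : ℂ)‖ ≤ 1 + x := by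
    refine (norm_sub_le _ _).trans ?_
    rw [norm_one, hzx]
  have h0 : 1 - x ≤ ‖1 - z * (x : ℂ)‖ := by
    have := norm_sub_norm_le (1 : ℂ) (z * (x : ℂ))
    rwa [norm_one, hzx] at this
  rw [norm_inv]
  refine le_trans ?_ (inv_anti₀ (by linarith) h1)
  rw [← one_div, le_div_iff₀ (by linarith)]
  nlinarith

/-- **The analytic contradiction.** -/
theorem no_total_splitting {F : Type*} [Field F] [NumberField F] {p : ℕ} (hp : 3 ≤ p)
    (χ : ClassGroup (𝓞 K) →* ℂ) (hχ : ∀ C, ‖χ C‖ = 1) (hne : ∃ C, χ C ≠ 1) (S₀ : Finset ℕ)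
    (j : PrimeIdeal K → Fin p → PrimeIdeal F)
    (hj : ∀ P : PrimeIdeal K, χ (ClassGroup.mk0 P.1) ≠ 1 → (pnorm P).Prime → pnorm P ∉ S₀ →
      ∀ i, pnorm (j P i) = pnorm P)
    (hinj : ∀ P P' : PrimeIdeal K, ∀ i i',
      χ (ClassGroup.mk0 P.1) ≠ 1 → (pnorm P).Prime → pnorm P ∉ S₀ →
      χ (ClassGroup.mk0 P'.1) ≠ 1 → (pnorm P').Prime → pnorm P' ∉ S₀ →
      j P i = j P' i' → P = P' ∧ i = i') : False := by
  classical
  have hc : ∑ C, χ C = 0 := by
    obtain ⟨C₀, hC₀⟩ := hne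
    have : χ C₀ * ∑ C, χ C = ∑ C, χ C := by
      rw [Finset.mul_sum]
      simp_rw [← map_mul]
      exact Equiv.sum_comp (Equiv.mulLeft C₀) fun C => χ C
    have h0 : (χ C₀ - 1) * ∑ C, χ C = 0 := by rw [sub_mul, this, one_mul, sub_self]
    exact (mul_eq_zero.mp h0).resolve_left (sub_ne_zero.mpr hC₀)
  obtain ⟨M, hM⟩ := exists_classSum_bound K (fun C => χ C) hc
  obtain ⟨B, hB⟩ := exists_bad_bound (K := K) S₀
  set ρ := dedekindZeta_residue K
  set ρ' := dedekindZeta_residue F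
  have hρ : 0 < ρ := dedekindZeta_residue_pos K
  set A : ℝ := (|M| * B ^ 2) ^ p * (2 * ρ') ^ 2
  have hmain : ∀ᶠ s : ℝ in 𝓝[>] 1, (ρ / 2) ^ p ≤ (s - 1) ^ (p - 2) * A := by
    filter_upwards [hM, eventually_zetaSum_bounds K, eventually_zetaSum_bounds F,
      self_mem_nhdsWithin] with s hMs hK hF (hs : 1 < s)
    obtain ⟨hfin, hlow, -⟩ := hK
    obtain ⟨hfinF, -, hupF⟩ := hF
    have hx := fun P : PrimeIdeal K => normTerm_prime_le_half hs.le P
    have hx0 := fun P : PrimeIdeal K => normTerm_nonneg s P.1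
    have hnorm : ∀ P : PrimeIdeal K, ‖lTerm χ s P.1‖ < 1 := fun P => by
      rw [norm_lTerm hχ]; linarith [hx P]
    have hsumL : Summable fun I => ‖lTerm χ s I‖ :=
      (summable_normTerm hfin).congr fun I => (norm_lTerm hχ s I).symm
    have hL := (tendsto_euler (lTerm χ s) hnorm hsumL).norm
    rw [tsum_lTerm hχ hfin] at hL
    have hZ : Tendsto (fun S : Finset (PrimeIdeal K) => ∏ P ∈ S, (1 - normTerm s P.1)⁻¹) atTop
        (𝓝 (zetaSum K s).toReal) := by
      rw [tsum_normTerm]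
      refine tendsto_euler (normTerm s) (fun P => ?_) ?_
      · rw [Real.norm_eq_abs, abs_of_nonneg (hx0 P)]; linarith [hx P]
      · exact (summable_normTerm hfin).congr fun I => (abs_of_nonneg (normTerm_nonneg s I)).symm
    set L := ‖∑ C, χ C * ((classZeta K C s).toReal : ℂ)‖
    set ZK := (zetaSum K s).toReal
    set ZF := (zetaSum F s).toReal
    have key : ∀ S : Finset (PrimeIdeal K),
        (∏ P ∈ S, (1 - normTerm s P.1)⁻¹) ^ p ≤
          (‖∏ P ∈ S, (1 - lTerm χ s P.1)⁻¹‖ * B ^ 2) ^ p * ZF ^ 2 := by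
      intro S
      set S1 := S.filter fun P => χ (ClassGroup.mk0 P.1) ≠ 1
      set E : PrimeIdeal K → ℝ := fun P => (1 - normTerm s P.1)⁻¹
      have hE : ∀ P, 0 < E P := fun P => inv_pos.mpr (by linarith [hx P])
      have h1 : ∏ P ∈ S, E P ≤ ‖∏ P ∈ S, (1 - lTerm χ s P.1)⁻¹‖ * (∏ P ∈ S1, E P) ^ 2 := by
        rw [norm_prod, ← Finset.prod_pow, Finset.prod_filter, ← Finset.prod_mul_distrib]
        refine Finset.prod_le_prod (fun P _ => (hE P).le) fun P _ => ?_
        rw [lTerm_apply]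
        by_cases hP : χ (ClassGroup.mk0 P.1) = 1
        · rw [if_neg (not_not.mpr hP), hP, one_mul, mul_one, ← Complex.ofReal_one,
            ← Complex.ofReal_sub, norm_inv, Complex.norm_real, Real.norm_eq_abs,
            abs_of_pos (by linarith [hx P] : (0 : ℝ) < 1 - normTerm s P.1)]
        · rw [if_pos hP]
          calc E P = (1 - normTerm s P.1) * E P ^ 2 := by
                rw [pow_two, ← mul_assoc, mul_inv_cancel₀ (by linarith [hx P]), one_mul]
            _ ≤ _ := mul_le_mul_of_nonneg_right (norm_inv_ge (hχ _) (hx0 P) (hx P))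
                (pow_nonneg (hE P).le 2)
      set G := S1.filter fun P => (pnorm P).Prime ∧ pnorm P ∉ S₀
      set D := S1.filter fun P => ¬((pnorm P).Prime ∧ pnorm P ∉ S₀)
      have h2 : ∏ P ∈ S1, E P = (∏ P ∈ G, E P) * ∏ P ∈ D, E P :=
        (Finset.prod_filter_mul_prod_filter_not S1 _ _).symm
      have h3 : ∏ P ∈ D, E P ≤ B := hB s hs.le D fun P hP => by
        have := (Finset.mem_filter.mp hP).2
        tauto
      have h4 : (∏ P ∈ G, E P) ^ p ≤ ZF := by
        have hG : ∀ P ∈ G, χ (ClassGroup.mk0 P.1) ≠ 1 ∧ (pnorm P).Prime ∧ pnorm P ∉ S₀ :=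
          fun P hP => ⟨(Finset.mem_filter.mp (Finset.mem_filter.mp hP).1).2,
            (Finset.mem_filter.mp hP).2⟩
        have hinj' : Set.InjOn (fun Pi : PrimeIdeal K × Fin p => j Pi.1 Pi.2)
            ↑(G ×ˢ (Finset.univ : Finset (Fin p))) := by
          intro a ha b hb hab
          simp only [Finset.coe_product, Set.mem_prod, Finset.mem_coe] at ha hb
          obtain ⟨a1, a2, a3⟩ := hG _ ha.1
          obtain ⟨b1, b2, b3⟩ := hG _ hb.1
          exact Prod.ext_iff.mpr (hinj _ _ _ _ a1 a2 a3 b1 b2 b3 hab)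
        refine le_of_eq_of_le ?_ (prod_le_zetaSum hs.le hfinF
          ((G ×ˢ (Finset.univ : Finset (Fin p))).image fun Pi => j Pi.1 Pi.2))
        rw [Finset.prod_image hinj', Finset.prod_product, ← Finset.prod_pow]
        refine Finset.prod_congr rfl fun P hP => ?_
        obtain ⟨g1, g2, g3⟩ := hG P hP
        have : ∀ i, (1 - normTerm s (j P i).1)⁻¹ = E P := fun i => by
          show _ = (1 - normTerm s P.1)⁻¹
          rw [normTerm_prime_eq, normTerm_prime_eq, hj P g1 g2 g3 i]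
        simp_rw [this]
        simp
      have hD0 : 0 ≤ ∏ P ∈ D, E P := Finset.prod_nonneg fun P _ => (hE P).le
      have hG0 : 0 ≤ ∏ P ∈ G, E P := Finset.prod_nonneg fun P _ => (hE P).le
      set N := ‖∏ P ∈ S, (1 - lTerm χ s P.1)⁻¹‖
      calc (∏ P ∈ S, E P) ^ p ≤ (N * (∏ P ∈ S1, E P) ^ 2) ^ p :=
            pow_le_pow_left₀ (Finset.prod_nonneg fun P _ => (hE P).le) h1 p
        _ = (N * (∏ P ∈ D, E P) ^ 2) ^ p * ((∏ P ∈ G, E P) ^ p) ^ 2 := by rw [h2]; ring
        _ ≤ (N * B ^ 2) ^ p * ZF ^ 2 := by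
            gcongr
    have hlim : ZK ^ p ≤ (L * B ^ 2) ^ p * ZF ^ 2 :=
      le_of_tendsto_of_tendsto' (hZ.pow p) (((hL.mul_const (B ^ 2)).pow p).mul_const (ZF ^ 2)) key
    have ht : 0 ≤ s - 1 := by linarith
    have hL0 : 0 ≤ L := norm_nonneg _
    have hB2 : (0 : ℝ) ≤ B ^ 2 := sq_nonneg B
    have hZF0 : 0 ≤ ZF := ENNReal.toReal_nonneg
    calc (ρ / 2) ^ p ≤ ((s - 1) * ZK) ^ p := pow_le_pow_left₀ (by positivity) hlow p
      _ ≤ (s - 1) ^ p * ((L * B ^ 2) ^ p * ZF ^ 2) := by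
          rw [mul_pow]; exact mul_le_mul_of_nonneg_left hlim (pow_nonneg ht p)
      _ = (s - 1) ^ (p - 2) * ((L * B ^ 2) ^ p * ((s - 1) * ZF) ^ 2) := by
          rw [show (s - 1) ^ p = (s - 1) ^ (p - 2) * (s - 1) ^ 2 by
            rw [← pow_add]; congr 1; omega]
          ring
      _ ≤ (s - 1) ^ (p - 2) * A := by
          refine mul_le_mul_of_nonneg_left ?_ (pow_nonneg ht _)
          refine mul_le_mul ?_ ?_ (by positivity) (by positivity)
          · exact pow_le_pow_left₀ (by positivity)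
              (mul_le_mul_of_nonneg_right (hMs.trans (le_abs_self M)) hB2) p
          · exact pow_le_pow_left₀ (mul_nonneg ht hZF0) hupF 2
  have hlim0 : Tendsto (fun s : ℝ => (s - 1) ^ (p - 2) * A) (𝓝[>] 1) (𝓝 0) := by
    have h : Continuous fun s : ℝ => (s - 1) ^ (p - 2) * A := by fun_prop
    have := (h.tendsto 1).mono_left (nhdsWithin_le_nhds (s := Set.Ioi (1 : ℝ)))
    simpa [zero_pow (by omega : p - 2 ≠ 0)] using this
  have := ge_of_tendsto hlim0 hmain
  have : (0 : ℝ) < (ρ / 2) ^ p := by positivity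
  linarith

end Fermat.Agent.ClassLSeries
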