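import Fermat.Agent.ClassLSeries.Density
import Mathlib.FieldTheory.KummerExtension
import Mathlib.RingTheory.RootsOfUnity.Lemmas
import Mathlib.RingTheory.RootsOfUnity.Complex
import Mathlib.RingTheory.Ideal.Norm.RelNorm
import Mathlib.RingTheory.RootsOfUnity.Minpoly
import Mathlib.NumberTheory.LegendreSymbol.AddCharacter

/-!
# Degree one primes avoiding a character and a power residue

There is a degree one prime at which a given class group character is nontrivial and a given unit is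
not a `p`-th power residue.
-/

set_option autoImplicit false

open NumberField Finset Polynomial
open scoped NumberField nonZeroDivisors

noncomputable section

namespace Fermat.Agent.ClassLSeries

variable {K : Type*} [Field K] [NumberField K]

/-- The degree of rings of integers is the degree of the fields. -/
lemma finrank_ringOfIntegers (F : Type*) [Field F] [NumberField F] [Algebra K F] :
    Module.finrank (𝓞 K) (𝓞 F) = Module.finrank K F := by
  have h1 := Module.finrank_mul_finrank' (R := ℤ) (S := 𝓞 K) (𝓞 F)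
  rw [RingOfIntegers.rank, RingOfIntegers.rank, ← Module.finrank_mul_finrank ℚ K F] at h1
  exact mul_left_cancel₀ Module.finrank_pos.ne' h1

/-- A prime ideal containing a prime number contains no other prime number. -/
lemma natCast_notMem_of_prime_ne {R : Type*} [CommRing R] {I : Ideal R} (hI : I.IsPrime)
    {l p : ℕ} (hl : l.Prime) (hp : p.Prime) (hlp : l ≠ p) (hlI : (l : R) ∈ I) : (p : R) ∉ I := by
  intro hmem
  obtain ⟨u, v, huv⟩ : IsCoprime (l : ℤ) (p : ℤ) :=
    Nat.isCoprime_iff_coprime.mpr ((Nat.coprime_primes hl hp).mpr hlp)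
  have h := congrArg (Int.castRingHom R) huv
  simp only [map_add, map_mul, map_one, map_natCast] at h
  exact hI.ne_top ((Ideal.eq_top_iff_one _).mpr
    (h ▸ Ideal.add_mem _ (Ideal.mul_mem_left _ _ hlI) (Ideal.mul_mem_left _ _ hmem)))

/-- Distinct `p`-th roots of unity stay distinct modulo a prime ideal not containing `p`. -/
lemma pow_sub_pow_notMem {R : Type*} [CommRing R] [IsDomain R] {p : ℕ} (hp : 0 < p) {z : R}
    (hz : IsPrimitiveRoot z p) {Q : Ideal R} (hQ : Q.IsPrime) (hpQ : (p : R) ∉ Q) {i i' : ℕ}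
    (hi : i < p) (hi' : i' < p) (hne : i ≠ i') : z ^ i - z ^ i' ∉ Q := by
  intro hmem
  wlog hlt : i < i' generalizing i i'
  · exact this hi' hi (Ne.symm hne) (by simpa using Q.neg_mem hmem) (by omega)
  rw [show z ^ i - z ^ i' = z ^ i * (1 - z ^ (i' - i)) by
    rw [mul_sub, mul_one, ← pow_add, Nat.add_sub_cancel' hlt.le]] at hmem
  have h1 : 1 - z ^ (i' - i) ∈ Q := by
    rcases hQ.mem_or_mem hmem with h | h
    · exact absurd (Ideal.eq_top_of_isUnit_mem _ h ((hz.isUnit hp.ne').pow i)) hQ.ne_top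
    · exact h
  have hp1 : p - 1 + 1 = p := Nat.sub_add_cancel hp
  have hprod := IsPrimitiveRoot.prod_one_sub_pow_eq_order (n := p - 1) (μ := z)
    (by rw [hp1]; exact hz)
  have hd : (1 - z ^ (i' - i)) ∣ ((p - 1 : ℕ) : R) + 1 := by
    rw [← hprod]
    have : i' - i - 1 + 1 = i' - i := by omega
    exact this ▸ Finset.dvd_prod_of_mem (fun k => 1 - z ^ (k + 1))
      (Finset.mem_range.mpr (show i' - i - 1 < p - 1 by omega))
  rw [← Nat.cast_add_one, hp1] at hd
  obtain ⟨c, hc⟩ := hd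
  exact hpQ (hc ▸ Ideal.mul_mem_right _ _ h1)

/-- Elements with congruent `p`-th powers modulo a prime ideal differ modulo it by a `p`-th root
of unity. -/
lemma exists_sub_pow_mul_mem {R : Type*} [CommRing R] [IsDomain R] {p : ℕ} (hp : 0 < p) {z : R}
    (hz : IsPrimitiveRoot z p) {Q : Ideal R} (hQ : Q.IsPrime) {β b : R}
    (h : β ^ p - b ^ p ∈ Q) : ∃ m, β - z ^ m * b ∈ Q := by
  have hprod : ∏ i ∈ Finset.range p, (β - z ^ i * b) = β ^ p - b ^ p := by
    have := congrArg (Polynomial.eval β) (X_pow_sub_C_eq_prod hz hp (α := b) rfl)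
    simpa [eval_prod] using this.symm
  rw [← hprod] at h
  obtain ⟨i, -, hi⟩ := (Ideal.IsPrime.prod_mem_iff (hp := hQ)).mp h
  exact ⟨i, hi⟩

/-- If `τ i` fixes `z` and `b` and sends `β` to `z ^ i * β`, and `β ≡ z ^ m * b` is a unit
modulo `Q`, the preimages of `Q` under the `τ i` are pairwise distinct. -/
lemma injective_comap_conj {R : Type*} [CommRing R] [IsDomain R] {p : ℕ} (hp : 0 < p) {z : R}
    (hz : IsPrimitiveRoot z p) {Q : Ideal R} (hQ : Q.IsPrime) (hpQ : (p : R) ∉ Q) {β b : R}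
    (hb : b ∉ Q) {m : ℕ} (hm : β - z ^ m * b ∈ Q) (τ : Fin p → (R →+* R))
    (hτz : ∀ i, τ i z = z) (hτb : ∀ i, τ i b = b) (hτβ : ∀ i, τ i β = z ^ (i : ℕ) * β) :
    Function.Injective fun i => Q.comap (τ i) := by
  intro i i' (h : Q.comap (τ i) = Q.comap (τ i'))
  by_contra hne
  have hx : ∀ k : Fin p, τ k (β - z ^ ((i : ℕ) + m) * b) =
      z ^ (k : ℕ) * β - z ^ ((i : ℕ) + m) * b := fun k => by
    rw [map_sub, map_mul, map_pow, hτβ, hτz, hτb]
  have h1 : β - z ^ ((i : ℕ) + m) * b ∈ Q.comap (τ i) := by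
    rw [Ideal.mem_comap, hx, pow_add, mul_assoc, ← mul_sub]
    exact Ideal.mul_mem_left _ _ hm
  rw [h, Ideal.mem_comap, hx] at h1
  have h3 : (z ^ (i' : ℕ) - z ^ (i : ℕ)) * (z ^ m * b) ∈ Q := by
    have := Q.sub_mem h1 (Q.mul_mem_left (z ^ (i' : ℕ)) hm)
    convert this using 1
    ring
  rcases hQ.mem_or_mem h3 with h4 | h4
  · exact pow_sub_pow_notMem hp hz hQ hpQ i'.2 i.2 (fun e => hne (Fin.ext e.symm)) h4
  · rcases hQ.mem_or_mem h4 with h5 | h5
    · exact hQ.ne_top (Ideal.eq_top_of_isUnit_mem _ h5 ((hz.isUnit hp.ne').pow m))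
    · exact hb h5

/-- If `p` distinct primes of an extension of degree `p` lie over a prime of norm `l`, each of
them has norm `l`. -/
lemma pnorm_eq_of_injective {F : Type*} [Field F] [NumberField F] [Algebra K F] {p : ℕ}
    (hdeg : Module.finrank K F = p) {P : PrimeIdeal K} {l : ℕ} (hl : l.Prime) (hPl : pnorm P = l)
    (j : Fin p → PrimeIdeal F) (hj : Function.Injective j)
    (hjP : ∀ i, ((j i).1 : Ideal (𝓞 F)).comap (algebraMap (𝓞 K) (𝓞 F)) = (P.1 : Ideal (𝓞 K)))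
    (i : Fin p) : pnorm (j i) = l := by
  classical
  have hinj : Function.Injective fun i => ((j i).1 : Ideal (𝓞 F)) := fun x y h =>
    hj (Subtype.ext (Subtype.ext h))
  have hdvd : (∏ i, ((j i).1 : Ideal (𝓞 F))) ∣
      (P.1 : Ideal (𝓞 K)).map (algebraMap (𝓞 K) (𝓞 F)) := by
    rw [← Finset.prod_image (f := fun I : Ideal (𝓞 F) => I) hinj.injOn]
    refine Finset.prod_primes_dvd _ (fun I hI => ?_) (fun I hI => ?_)
    · obtain ⟨i, -, rfl⟩ := Finset.mem_image.mp hI; exact (j i).2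
    · obtain ⟨i, -, rfl⟩ := Finset.mem_image.mp hI
      exact Ideal.dvd_iff_le.mpr (Ideal.map_le_iff_le_comap.mpr (hjP i).ge)
  have hN := map_dvd Ideal.absNorm hdvd
  rw [map_prod, Ideal.absNorm_algebraMap, finrank_ringOfIntegers, hdeg,
    show Ideal.absNorm (P.1 : Ideal (𝓞 K)) = l from hPl] at hN
  have hf : ∀ i, ∃ f, 1 ≤ f ∧ pnorm (j i) = l ^ f := fun i => by
    have : pnorm (j i) ∣ l ^ p := dvd_trans
      (Finset.dvd_prod_of_mem (fun i => Ideal.absNorm ((j i).1 : Ideal (𝓞 F))) (Finset.mem_univ i))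
      hN
    obtain ⟨f, -, hf⟩ := (Nat.dvd_prime_pow hl).mp this
    have h2 := two_le_pnorm (j i)
    refine ⟨f, Nat.one_le_iff_ne_zero.mpr fun h0 => ?_, hf⟩
    rw [hf, h0, pow_zero] at h2
    omega
  choose f hf1 hf using hf
  have hsum : ∑ i, f i ≤ p := by
    refine (Nat.pow_dvd_pow_iff_le_right hl.one_lt).mp ?_
    rw [← Finset.prod_pow_eq_pow_sum, ← Finset.prod_congr rfl (fun i _ => hf i)]
    exact hN
  have : f i = 1 := by
    refine le_antisymm ?_ (hf1 i)
    by_contra h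
    have hlt : ∑ _k : Fin p, 1 < ∑ k, f k :=
      Finset.sum_lt_sum (fun k _ => hf1 k) ⟨i, Finset.mem_univ i, not_le.mp h⟩
    rw [Finset.sum_const, Finset.card_univ, Fintype.card_fin, smul_eq_mul, mul_one] at hlt
    omega
  rw [hf i, this, pow_one]

/-- A degree one prime at which the `p`-th power residue of `a` is trivial splits completely in a
field containing a root of `X ^ p - a` and all its conjugations. -/
lemma exists_split {F : Type*} [Field F] [NumberField F] [Algebra K F] {p : ℕ} [Fact p.Prime]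
    (hdeg : Module.finrank K F = p) {ζ : K} (hζ : IsPrimitiveRoot ζ p) (a : (𝓞 K)ˣ)
    (β : 𝓞 F) (hβ : β ^ p = algebraMap (𝓞 K) (𝓞 F) a) (σ : ℕ → (F →ₐ[K] F))
    (hσ : ∀ i, σ i (β : F) = algebraMap K F ζ ^ i * (β : F))
    (P : PrimeIdeal K) (l : ℕ) (hl : l.Prime) (hlp : l ≠ p) (hPl : pnorm P = l)
    (y : 𝓞 K) (hy : (a : 𝓞 K) - y ^ p ∈ (P.1 : Ideal (𝓞 K))) :
    ∃ j : Fin p → PrimeIdeal F, Function.Injective j ∧
      (∀ i, pnorm (j i) = l) ∧
      ∀ i, ((j i).1 : Ideal (𝓞 F)).comap (algebraMap (𝓞 K) (𝓞 F)) = (P.1 : Ideal (𝓞 K)) := by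
  classical
  have hp : p.Prime := Fact.out
  have : NeZero p := ⟨hp.ne_zero⟩
  have hP : (P.1 : Ideal (𝓞 K)).IsPrime := Ideal.isPrime_of_prime P.2
  have : (P.1 : Ideal (𝓞 K)).IsMaximal := hP.isMaximal P.2.ne_zero
  set φ := algebraMap (𝓞 K) (𝓞 F)
  have hφinj : Function.Injective φ := FaithfulSMul.algebraMap_injective (𝓞 K) (𝓞 F)
  obtain ⟨Q₀, hQ₀max, hQ₀⟩ := Ideal.exists_ideal_over_maximal_of_isIntegral
    (S := 𝓞 F) (P.1 : Ideal (𝓞 K))
    (by rw [(RingHom.injective_iff_ker_eq_bot _).mp hφinj]; exact bot_le)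
  have hQ₀p : Q₀.IsPrime := hQ₀max.isPrime
  have hpQ : (p : 𝓞 F) ∉ Q₀ := fun h => natCast_notMem_of_prime_ne hP hl hp hlp
    (hPl ▸ Ideal.absNorm_mem _) (hQ₀ ▸ Ideal.mem_comap.mpr (by rwa [map_natCast]))
  -- the root of unity in the integers
  set z : 𝓞 F := φ ⟨ζ, hζ.isIntegral hp.pos⟩
  have hz : IsPrimitiveRoot z p := by
    refine IsPrimitiveRoot.of_map_of_injective (f := algebraMap (𝓞 F) F) ?_
      RingOfIntegers.coe_injective
    rw [show algebraMap (𝓞 F) F z = algebraMap K F ζ from rfl]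
    exact hζ.map_of_injective (algebraMap K F).injective
  -- `β` is a root of unity times `y` modulo `Q₀`
  have hab : β ^ p - φ y ^ p ∈ Q₀ := by
    rw [hβ, ← map_pow φ, ← map_sub φ]
    exact (show (a : 𝓞 K) - y ^ p ∈ Q₀.comap φ from hQ₀.symm ▸ hy)
  obtain ⟨m, hm⟩ := exists_sub_pow_mul_mem hp.pos hz hQ₀p hab
  have hbQ : φ y ∉ Q₀ := by
    intro hb
    have : β ^ p ∈ Q₀ := by
      have := Ideal.add_mem _ hab (Ideal.pow_mem_of_mem _ hb p hp.pos)
      rwa [sub_add_cancel] at this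
    rw [hβ] at this
    exact hQ₀p.ne_top (Ideal.eq_top_of_isUnit_mem _ this ((a.isUnit).map φ))
  -- the conjugate primes
  let τ : Fin p → (𝓞 F →+* 𝓞 F) := fun i => RingOfIntegers.mapRingHom (σ i)
  have hτφ : ∀ i (x : 𝓞 K), τ i (φ x) = φ x := fun i x =>
    RingOfIntegers.coe_injective ((σ i).commutes (x : K))
  have hτβ : ∀ i : Fin p, τ i β = z ^ (i : ℕ) * β := fun i => by
    refine RingOfIntegers.coe_injective ?_
    show σ i (β : F) = _
    rw [hσ i, map_mul, map_pow]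
    rfl
  let Q : Fin p → Ideal (𝓞 F) := fun i => Q₀.comap (τ i)
  have hQc : ∀ i, (Q i).comap φ = (P.1 : Ideal (𝓞 K)) := fun i => by
    rw [← hQ₀]
    ext x
    show τ i (φ x) ∈ Q₀ ↔ φ x ∈ Q₀
    rw [hτφ]
  have hQp : ∀ i, Prime (Q i) := fun i => by
    refine Ideal.prime_of_isPrime (fun hbot => ?_) (Ideal.IsPrime.comap (hK := hQ₀p) _)
    refine P.2.ne_zero ?_
    rw [← hQc i, hbot, Ideal.comap_bot_of_injective _ hφinj]
    rfl
  have hj : Function.Injective fun i => primeOfDvd (hQp i) := fun i i' h =>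
    injective_comap_conj hp.pos hz hQ₀p hpQ hbQ hm τ (fun i => hτφ i _) (fun i => hτφ i y) hτβ
      (congrArg (fun x : PrimeIdeal F => (x.1 : Ideal (𝓞 F))) h)
  exact ⟨fun i => primeOfDvd (hQp i), hj, pnorm_eq_of_injective hdeg hl hPl _ hj hQc, hQc⟩

/-- **Prime supply**: for a nonzero class group functional and a unit that is not a `p`-th power,
there is a degree one prime where the functional is nonzero and the unit is a non-residue. -/
theorem exists_prime_class_ne_zero_not_pow {p : ℕ} [Fact p.Prime] (hp : 3 ≤ p)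
    {ζ : K} (hζ : IsPrimitiveRoot ζ p) (φ : Additive (ClassGroup (𝓞 K)) →+ ZMod p) (hφ : φ ≠ 0)
    (a : (𝓞 K)ˣ) (ha : ∀ b : K, b ^ p ≠ (a : K)) (S : Finset ℕ) :
    ∃ (P : (Ideal (𝓞 K))⁰) (l : ℕ), P.1.IsPrime ∧ l.Prime ∧ Ideal.absNorm P.1 = l ∧ l ≠ p ∧
      l ∉ S ∧ φ (Additive.ofMul (ClassGroup.mk0 P)) ≠ 0 ∧
      ∀ y : 𝓞 K, (a : 𝓞 K) - y ^ p ∉ P.1 := by
  classical
  by_contra hcon
  push Not at hcon
  have hpp : p.Prime := Fact.out
  have : NeZero p := ⟨hpp.ne_zero⟩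
  -- the character
  have hω := Complex.isPrimitiveRoot_exp p hpp.ne_zero
  set ω := Complex.exp (2 * Real.pi * Complex.I / p)
  let χ : ClassGroup (𝓞 K) →* ℂ :=
    (AddChar.zmodChar p hω.pow_eq_one).toMonoidHom.comp (AddMonoidHom.toMultiplicativeRight φ)
  have hχ : ∀ C, χ C = ω ^ (φ (Additive.ofMul C)).val := fun C =>
    AddChar.zmodChar_apply hω.pow_eq_one _
  have hχ1 : ∀ C, χ C = 1 ↔ φ (Additive.ofMul C) = 0 := fun C => by
    rw [hχ, hω.pow_eq_one_iff_dvd, ← ZMod.val_eq_zero]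
    exact ⟨fun h => Nat.eq_zero_of_dvd_of_lt h (ZMod.val_lt _), fun h => h ▸ dvd_zero p⟩
  have hχn : ∀ C, ‖χ C‖ = 1 := fun C => by
    rw [hχ, norm_pow, hω.norm'_eq_one hpp.ne_zero, one_pow]
  have hne : ∃ C, χ C ≠ 1 := by
    by_contra h
    push Not at h
    exact hφ (AddMonoidHom.ext fun C => (hχ1 C.toMul).mp (h _))
  -- the Kummer field
  have : Fact (Irreducible (X ^ p - C (a : K) : K[X])) :=
    ⟨X_pow_sub_C_irreducible_of_prime hpp ha⟩
  have hmonic : (X ^ p - C (a : K) : K[X]).Monic := monic_X_pow_sub_C _ hpp.ne_zero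
  have : Module.Finite K (AdjoinRoot (X ^ p - C (a : K) : K[X])) :=
    (AdjoinRoot.powerBasis' hmonic).finite
  have : NumberField (AdjoinRoot (X ^ p - C (a : K) : K[X])) :=
    NumberField.of_module_finite K _
  set F := AdjoinRoot (X ^ p - C (a : K) : K[X])
  have hdeg : Module.finrank K F = p := by
    rw [(AdjoinRoot.powerBasis' hmonic).finrank, AdjoinRoot.powerBasis'_dim,
      natDegree_X_pow_sub_C]
  set r : F := AdjoinRoot.root _
  have hr : r ^ p = algebraMap K F (a : K) := by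
    have := AdjoinRoot.eval₂_root (X ^ p - C (a : K) : K[X])
    rw [eval₂_sub, eval₂_pow, eval₂_X, eval₂_C, sub_eq_zero] at this
    exact this
  have hrint : IsIntegral ℤ r := by
    refine IsIntegral.of_pow hpp.pos ?_
    rw [hr]
    exact (RingOfIntegers.isIntegral_coe (a : 𝓞 K)).map (algebraMap K F).toIntAlgHom
  set β : 𝓞 F := ⟨r, hrint⟩
  have hβ : β ^ p = algebraMap (𝓞 K) (𝓞 F) a := RingOfIntegers.coe_injective hr
  let σ : ℕ → (F →ₐ[K] F) := fun i =>
    AdjoinRoot.liftAlgHom (X ^ p - C (a : K) : K[X]) (Algebra.ofId K F)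
      (algebraMap K F ζ ^ i * r) (by
        rw [eval₂_sub, eval₂_pow, eval₂_X, eval₂_C, mul_pow, ← pow_mul, mul_comm i, pow_mul,
          ← map_pow, hζ.pow_eq_one, map_one, one_pow, one_mul, hr]
        exact sub_self _)
  have hσ : ∀ i, σ i (β : F) = algebraMap K F ζ ^ i * (β : F) := fun i =>
    AdjoinRoot.liftAlgHom_root _ _ _ _
  -- the split primes
  have hex : ∀ P : PrimeIdeal K, ∃ j : Fin p → PrimeIdeal F,
      χ (ClassGroup.mk0 P.1) ≠ 1 → (pnorm P).Prime → pnorm P ∉ insert p S →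
        Function.Injective j ∧ (∀ i, pnorm (j i) = pnorm P) ∧
        ∀ i, ((j i).1 : Ideal (𝓞 F)).comap (algebraMap (𝓞 K) (𝓞 F)) = (P.1 : Ideal (𝓞 K)) := by
    intro P
    by_cases h : χ (ClassGroup.mk0 P.1) ≠ 1 ∧ (pnorm P).Prime ∧ pnorm P ∉ insert p S
    · obtain ⟨h1, h2, h3⟩ := h
      simp only [Finset.mem_insert, not_or] at h3
      obtain ⟨y, hy⟩ := hcon P.1 (pnorm P) (Ideal.isPrime_of_prime P.2) h2 rfl h3.1 h3.2
        (fun h => h1 ((hχ1 _).mpr h))
      obtain ⟨j, hj⟩ := exists_split hdeg hζ a β hβ σ hσ P (pnorm P) h2 h3.1 rfl y hy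
      exact ⟨j, fun _ _ _ => hj⟩
    · obtain ⟨M, hM⟩ := Ideal.exists_maximal (𝓞 F)
      exact ⟨fun _ => primeOfDvd (Ideal.prime_of_isPrime
        (Ring.ne_bot_of_isMaximal_of_not_isField hM (RingOfIntegers.not_isField F)) hM.isPrime),
        fun h1 h2 h3 => absurd ⟨h1, h2, h3⟩ h⟩
  choose j hj using hex
  refine no_total_splitting hp χ hχn hne (insert p S) j (fun P h1 h2 h3 => (hj P h1 h2 h3).2.1) ?_
  intro P P' i i' h1 h2 h3 h1' h2' h3' h
  have hPP : P = P' := by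
    refine Subtype.ext (Subtype.ext ?_)
    rw [← (hj P h1 h2 h3).2.2 i, ← (hj P' h1' h2' h3').2.2 i', h]
  subst hPP
  exact ⟨rfl, (hj P h1 h2 h3).1 h⟩

end Fermat.Agent.ClassLSeries
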