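import Mathlib.NumberTheory.NumberField.Units.Regulator
import Mathlib.NumberTheory.NumberField.CanonicalEmbedding.Basic

/-!
# A periodised test function

A piecewise linear function on a number field, periodised over the units, used to bound partial zeta
functions of ideal classes near `s = 1` without any measure theory.
-/

set_option autoImplicit false

open NumberField NumberField.InfinitePlace NumberField.Units Module Finset
open NumberField.Units.dirichletUnitTheorem (w₀ logSpace)
open scoped NumberField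

noncomputable section

namespace Fermat.Agent.ClassLSeries

/-! ### Tents -/

/-- The hat function. -/
def tent (x : ℝ) : ℝ := max 0 (1 - |x|)

/-- The tent is nonnegative. -/
lemma tent_nonneg (x : ℝ) : 0 ≤ tent x := le_max_left _ _

/-- The tent is at most `1`. -/
lemma tent_le_one (x : ℝ) : tent x ≤ 1 :=
  max_le zero_le_one (by linarith [abs_nonneg x])

/-- The tent is supported in `(-1, 1)`. -/
lemma tent_eq_zero {x : ℝ} (h : 1 ≤ |x|) : tent x = 0 := max_eq_left (by linarith)

lemma abs_lt_one_of_tent_ne_zero {x : ℝ} (h : tent x ≠ 0) : |x| < 1 :=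
  not_le.mp fun h' => h (tent_eq_zero h')

lemma abs_tent_sub_tent (x y : ℝ) : |tent x - tent y| ≤ |x - y| := by
  unfold tent
  refine (abs_max_sub_max_le_max 0 (1 - |x|) 0 (1 - |y|)).trans ?_
  refine max_le (by simp) ?_
  rw [show (1 - |x|) - (1 - |y|) = -(|x| - |y|) by ring, abs_neg]
  exact abs_abs_sub_abs_le_abs_sub x y

/-- The two integers `n` for which `tent (x + n)` may be nonzero. -/
def tentSupp (x : ℝ) : Finset ℤ := {-⌊x⌋, -⌊x⌋ - 1}

lemma sum_tentSupp (x : ℝ) : ∑ n ∈ tentSupp x, tent (x + n) = 1 := by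
  have hne : -⌊x⌋ ≠ -⌊x⌋ - 1 := by omega
  rw [tentSupp, Finset.sum_pair hne]
  have h1 := Int.floor_le x
  have h2 := Int.lt_floor_add_one x
  unfold tent
  push_cast
  rw [abs_of_nonneg (by linarith : 0 ≤ x + -(⌊x⌋ : ℝ)),
    abs_of_nonpos (by linarith : x + (-(⌊x⌋ : ℝ) - 1) ≤ 0)]
  rw [max_eq_right (by linarith), max_eq_right (by linarith)]
  ring

lemma tent_add_eq_zero {x : ℝ} {n : ℤ} (hn : n ∉ tentSupp x) : tent (x + n) = 0 := by
  refine tent_eq_zero ?_
  simp only [tentSupp, Finset.mem_insert, Finset.mem_singleton, not_or] at hn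
  have h1 := Int.floor_le x
  have h2 := Int.lt_floor_add_one x
  rcases (show -⌊x⌋ + 1 ≤ n ∨ n ≤ -⌊x⌋ - 2 by omega) with h | h
  · have h' : ((-⌊x⌋ + 1 : ℤ) : ℝ) ≤ n := Int.cast_le.mpr h
    push_cast at h'
    rw [abs_of_nonneg (by linarith)]
    linarith
  · have h' : (n : ℝ) ≤ ((-⌊x⌋ - 2 : ℤ) : ℝ) := Int.cast_le.mpr h
    push_cast at h'
    rw [abs_of_nonpos (by linarith)]
    linarith

lemma abs_prod_sub_prod {ι : Type*} (S : Finset ι) (f g : ι → ℝ)
    (hf : ∀ i, 0 ≤ f i ∧ f i ≤ 1) (hg : ∀ i, 0 ≤ g i ∧ g i ≤ 1) :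
    |∏ i ∈ S, f i - ∏ i ∈ S, g i| ≤ ∑ i ∈ S, |f i - g i| := by
  classical
  induction S using Finset.induction_on with
  | empty => simp
  | insert a S ha ih =>
    rw [prod_insert ha, prod_insert ha, sum_insert ha]
    have e : f a * ∏ i ∈ S, f i - g a * ∏ i ∈ S, g i =
        (f a - g a) * ∏ i ∈ S, f i + g a * (∏ i ∈ S, f i - ∏ i ∈ S, g i) := by ring
    rw [e]
    refine (abs_add_le _ _).trans (add_le_add ?_ ?_)
    · rw [abs_mul]
      refine mul_le_of_le_one_right (abs_nonneg _) ?_
      rw [abs_of_nonneg (prod_nonneg fun i _ => (hf i).1)]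
      exact prod_le_one (fun i _ => (hf i).1) (fun i _ => (hf i).2)
    · rw [abs_mul, abs_of_nonneg (hg a).1]
      exact (mul_le_of_le_one_left (abs_nonneg _) (hg a).2).trans ih

/-- `exp` is Lipschitz with constant `exp c` on `(-∞, c]`. -/
lemma abs_exp_sub_exp_le (a b : ℝ) {c : ℝ} (ha : a ≤ c) (hb : b ≤ c) :
    |Real.exp a - Real.exp b| ≤ Real.exp c * |a - b| := by
  wlog hab : b ≤ a generalizing a b
  · rw [abs_sub_comm, abs_sub_comm a b]
    exact this b a hb ha (le_of_not_ge hab)
  rw [abs_of_nonneg (sub_nonneg.mpr (Real.exp_le_exp.mpr hab)),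
    abs_of_nonneg (sub_nonneg.mpr hab)]
  have h1 : (b - a) + 1 ≤ Real.exp (b - a) := Real.add_one_le_exp _
  have h2 : Real.exp b = Real.exp a * Real.exp (b - a) := by
    rw [← Real.exp_add]; ring_nf
  calc Real.exp a - Real.exp b = Real.exp a * (1 - Real.exp (b - a)) := by rw [h2]; ring
    _ ≤ Real.exp a * (a - b) :=
        mul_le_mul_of_nonneg_left (by linarith) (Real.exp_pos _).le
    _ ≤ Real.exp c * (a - b) :=
        mul_le_mul_of_nonneg_right (Real.exp_le_exp.mpr ha) (by linarith)

/-- The weight in the norm direction. -/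
def psi (s u : ℝ) : ℝ := tent u * Real.exp (-s * max u (-1))

lemma psi_nonneg (s u : ℝ) : 0 ≤ psi s u := mul_nonneg (tent_nonneg _) (Real.exp_pos _).le

/-- `psi` without the cutoff, which is invisible where the tent is nonzero. -/
lemma psi_eq (s u : ℝ) : psi s u = tent u * Real.exp (-s * u) := by
  unfold psi
  by_cases h : tent u = 0
  · simp [h]
  · rw [max_eq_left (by linarith [(abs_lt.mp (abs_lt_one_of_tent_ne_zero h)).1])]

lemma exponent_le {s : ℝ} (hs0 : 0 ≤ s) (hs : s ≤ 2) (u : ℝ) : -s * max u (-1) ≤ 2 := by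
  nlinarith [le_max_right u (-1)]

lemma psi_le {s : ℝ} (hs0 : 0 ≤ s) (hs : s ≤ 2) (u : ℝ) : psi s u ≤ Real.exp 2 := by
  calc psi s u ≤ 1 * Real.exp 2 :=
        mul_le_mul (tent_le_one u) (Real.exp_le_exp.mpr (exponent_le hs0 hs u))
          (Real.exp_pos _).le zero_le_one
    _ = _ := one_mul _

lemma abs_psi_sub_psi {s : ℝ} (hs0 : 0 ≤ s) (hs : s ≤ 2) (u v : ℝ) :
    |psi s u - psi s v| ≤ 3 * Real.exp 2 * |u - v| := by
  unfold psi
  have e : tent u * Real.exp (-s * max u (-1)) - tent v * Real.exp (-s * max v (-1)) =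
      (tent u - tent v) * Real.exp (-s * max u (-1)) +
        tent v * (Real.exp (-s * max u (-1)) - Real.exp (-s * max v (-1))) := by ring
  rw [e]
  refine (abs_add_le _ _).trans ?_
  rw [abs_mul, abs_mul, abs_of_nonneg (Real.exp_pos _).le, abs_of_nonneg (tent_nonneg v)]
  have h1 : |tent u - tent v| * Real.exp (-s * max u (-1)) ≤ |u - v| * Real.exp 2 :=
    mul_le_mul (abs_tent_sub_tent u v) (Real.exp_le_exp.mpr (exponent_le hs0 hs u))
      (Real.exp_pos _).le (abs_nonneg _)
  have h3 : |-s * max u (-1) - -s * max v (-1)| ≤ 2 * |u - v| := by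
    rw [show -s * max u (-1) - -s * max v (-1) = -s * (max u (-1) - max v (-1)) by ring,
      abs_mul, abs_neg, abs_of_nonneg hs0]
    exact mul_le_mul hs (abs_max_sub_max_le_abs u v (-1)) (abs_nonneg _) (by norm_num)
  have h4 : tent v * |Real.exp (-s * max u (-1)) - Real.exp (-s * max v (-1))| ≤
      Real.exp 2 * (2 * |u - v|) :=
    (mul_le_of_le_one_left (abs_nonneg _) (tent_le_one v)).trans
      ((abs_exp_sub_exp_le _ _ (exponent_le hs0 hs u) (exponent_le hs0 hs v)).trans
        (mul_le_mul_of_nonneg_left h3 (Real.exp_pos _).le))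
  linarith

/-! ### Coordinates on the logarithms of the absolute values -/

variable (K : Type*) [Field K] [NumberField K]

/-- The logarithms of the absolute values. -/
def logVec (x : K) : InfinitePlace K → ℝ := fun w => Real.log (w x)

/-- Logarithm of the absolute norm, read off from `logVec`. -/
def sigma : (InfinitePlace K → ℝ) →ₗ[ℝ] ℝ where
  toFun y := ∑ w : InfinitePlace K, (mult w : ℝ) * y w
  map_add' y y' := by simp [mul_add, Finset.sum_add_distrib]
  map_smul' c y := by simp [Finset.mul_sum, mul_left_comm]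

/-- `sigma` is the sum of the coordinates weighted by the multiplicities. -/
lemma sigma_apply (y : InfinitePlace K → ℝ) :
    sigma K y = ∑ w : InfinitePlace K, (mult w : ℝ) * y w := rfl

lemma sum_mult_real : ∑ w : InfinitePlace K, (mult w : ℝ) = finrank ℚ K := by
  rw [← Nat.cast_sum, sum_mult_eq]

lemma finrank_pos_real : (0 : ℝ) < finrank ℚ K := Nat.cast_pos.mpr finrank_pos

/-- Projection along the norm direction. -/
def proj : (InfinitePlace K → ℝ) →ₗ[ℝ] logSpace K where
  toFun y w := (mult w.1 : ℝ) * (y w.1 - sigma K y / finrank ℚ K)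
  map_add' y y' := by
    funext w; simp only [map_add, Pi.add_apply]; ring
  map_smul' c y := by
    funext w; simp only [map_smul, Pi.smul_apply, smul_eq_mul, RingHom.id_apply]; ring

/-- The coordinates of `proj`. -/
lemma proj_apply (y : InfinitePlace K → ℝ) (w : {w : InfinitePlace K // w ≠ w₀}) :
    proj K y w = (mult w.1 : ℝ) * (y w.1 - sigma K y / finrank ℚ K) := rfl

open scoped Classical in
/-- Real basis of the log space given by the fundamental units. -/
def basisLog : Basis (Fin (rank K)) ℝ (logSpace K) :=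
  (basisUnitLattice K).ofZLatticeBasis ℝ (unitLattice K)

lemma basisLog_apply (i : Fin (rank K)) :
    basisLog K i = logEmbedding K (Additive.ofMul (fundSystem K i)) := by
  rw [logEmbedding_fundSystem, basisLog, Basis.ofZLatticeBasis_apply]

/-- Coordinates along the fundamental units. -/
def coords : (InfinitePlace K → ℝ) →ₗ[ℝ] (Fin (rank K) → ℝ) :=
  (basisLog K).equivFun.toLinearMap.comp (proj K)

/-- All coordinates. -/
def allCoords : (InfinitePlace K → ℝ) →ₗ[ℝ] ℝ × (Fin (rank K) → ℝ) :=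
  (sigma K).prod (coords K)

lemma ker_allCoords : LinearMap.ker (allCoords K) = ⊥ := by
  rw [LinearMap.ker_eq_bot']
  intro y hy
  have hs : sigma K y = 0 := congrArg Prod.fst hy
  have hp : proj K y = 0 := by
    have h := congrArg Prod.snd hy
    exact (basisLog K).equivFun.map_eq_zero_iff.mp h
  have hne : ∀ w : InfinitePlace K, w ≠ w₀ → y w = 0 := fun w hw => by
    have := congrFun hp ⟨w, hw⟩
    rw [proj_apply, hs] at this
    simpa [mult_coe_ne_zero] using this
  funext w
  by_cases hw : w = w₀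
  · rw [sigma_apply, Finset.sum_eq_single (w₀ : InfinitePlace K)
      (fun b _ hb => by rw [hne b hb, mul_zero]) (fun h => (h (Finset.mem_univ _)).elim)] at hs
    rw [hw]
    exact (mul_eq_zero.mp hs).resolve_left mult_coe_ne_zero
  · exact hne w hw

lemma norm_allCoords_le :
    ∃ c : ℝ, 0 ≤ c ∧ ∀ y, ‖allCoords K y‖ ≤ c * ‖y‖ :=
  ⟨_, norm_nonneg _, (allCoords K).toContinuousLinearMap.le_opNorm⟩

lemma norm_le_allCoords :
    ∃ c : ℝ, 0 ≤ c ∧ ∀ y, ‖y‖ ≤ c * ‖allCoords K y‖ := by
  obtain ⟨M, -, hM⟩ := (allCoords K).exists_antilipschitzWith (ker_allCoords K)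
  exact ⟨M, M.coe_nonneg, fun y => ZeroHomClass.bound_of_antilipschitz (allCoords K) hM y⟩

/-! ### The test function -/

/-- The product of the tents in the unit coordinates. -/
def unitWeight (y : InfinitePlace K → ℝ) : ℝ := ∏ i, tent (coords K y i)

lemma unitWeight_nonneg (y : InfinitePlace K → ℝ) : 0 ≤ unitWeight K y :=
  prod_nonneg fun _ _ => tent_nonneg _

lemma unitWeight_le_one (y : InfinitePlace K → ℝ) : unitWeight K y ≤ 1 :=
  prod_le_one (fun _ _ => tent_nonneg _) (fun _ _ => tent_le_one _)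

/-- The test function on log vectors. -/
def bump (s : ℝ) (y : InfinitePlace K → ℝ) : ℝ := psi s (sigma K y) * unitWeight K y

lemma bump_nonneg (s : ℝ) (y : InfinitePlace K → ℝ) : 0 ≤ bump K s y :=
  mul_nonneg (psi_nonneg _ _) (unitWeight_nonneg K _)

lemma bump_le {s : ℝ} (hs0 : 0 ≤ s) (hs : s ≤ 2) (y : InfinitePlace K → ℝ) :
    bump K s y ≤ Real.exp 2 :=
  (mul_le_of_le_one_right (psi_nonneg _ _) (unitWeight_le_one K _)).trans (psi_le hs0 hs _)

lemma norm_allCoords_le_one {s : ℝ} {y : InfinitePlace K → ℝ} (h : bump K s y ≠ 0) :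
    ‖allCoords K y‖ ≤ 1 := by
  obtain ⟨h1, h2⟩ := mul_ne_zero_iff.mp h
  rw [Prod.norm_def]
  refine max_le ?_ ?_
  · exact (abs_lt_one_of_tent_ne_zero (left_ne_zero_of_mul h1)).le
  · exact (pi_norm_le_iff_of_nonneg zero_le_one).mpr fun i =>
      (abs_lt_one_of_tent_ne_zero (prod_ne_zero_iff.mp h2 i (mem_univ i))).le

lemma exists_bump_lipschitz :
    ∃ C : ℝ, 0 ≤ C ∧ ∀ s : ℝ, 0 ≤ s → s ≤ 2 → ∀ y y' : InfinitePlace K → ℝ,
      |bump K s y - bump K s y'| ≤ C * ‖y - y'‖ := by
  obtain ⟨c, hc, hbd⟩ := norm_allCoords_le K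
  refine ⟨(3 + (rank K : ℝ)) * Real.exp 2 * c, by positivity, fun s hs0 hs y y' => ?_⟩
  have hd : ‖allCoords K y - allCoords K y'‖ ≤ c * ‖y - y'‖ := by
    rw [← map_sub]; exact hbd _
  set D := ‖allCoords K y - allCoords K y'‖
  have hσ : |sigma K y - sigma K y'| ≤ D := norm_fst_le (allCoords K y - allCoords K y')
  have hc' : ∀ i, |coords K y i - coords K y' i| ≤ D := fun i =>
    (norm_le_pi_norm (coords K y - coords K y') i).trans
      (norm_snd_le (allCoords K y - allCoords K y'))
  have hT : |unitWeight K y - unitWeight K y'| ≤ (rank K : ℝ) * D := by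
    refine (abs_prod_sub_prod _ _ _ (fun i => ⟨tent_nonneg _, tent_le_one _⟩)
      (fun i => ⟨tent_nonneg _, tent_le_one _⟩)).trans ?_
    refine (Finset.sum_le_card_nsmul _ _ D
      (fun i _ => (abs_tent_sub_tent _ _).trans (hc' i))).trans ?_
    simp
  have e : bump K s y - bump K s y' =
      (psi s (sigma K y) - psi s (sigma K y')) * unitWeight K y +
        psi s (sigma K y') * (unitWeight K y - unitWeight K y') := by
    unfold bump; ring
  rw [e]
  refine (abs_add_le _ _).trans ?_
  rw [abs_mul, abs_mul, abs_of_nonneg (unitWeight_nonneg K _), abs_of_nonneg (psi_nonneg _ _)]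
  have h1 : |psi s (sigma K y) - psi s (sigma K y')| * unitWeight K y ≤ 3 * Real.exp 2 * D :=
    (mul_le_of_le_one_right (abs_nonneg _) (unitWeight_le_one K _)).trans
      ((abs_psi_sub_psi hs0 hs _ _).trans (mul_le_mul_of_nonneg_left hσ (by positivity)))
  have h2 : psi s (sigma K y') * |unitWeight K y - unitWeight K y'| ≤
      Real.exp 2 * ((rank K : ℝ) * D) :=
    mul_le_mul (psi_le hs0 hs _) hT (abs_nonneg _) (Real.exp_pos _).le
  have h3 : (3 + (rank K : ℝ)) * Real.exp 2 * D ≤
      (3 + (rank K : ℝ)) * Real.exp 2 * (c * ‖y - y'‖) :=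
    mul_le_mul_of_nonneg_left hd (by positivity)
  linarith

/-- The log vector of `x` shifted so that the level `k` becomes `0`. -/
def shiftVec (k : ℝ) (x : K) : InfinitePlace K → ℝ :=
  fun w => Real.log (w x) - k / finrank ℚ K

/-- The test function at level `k`. -/
def testFun (s k : ℝ) (x : K) : ℝ :=
  open scoped Classical in if x = 0 then 0 else bump K s (shiftVec K k x)

lemma testFun_nonneg (s k : ℝ) (x : K) : 0 ≤ testFun K s k x := by
  unfold testFun; split_ifs
  · exact le_rfl
  · exact bump_nonneg K _ _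

lemma testFun_le {s : ℝ} (hs0 : 0 ≤ s) (hs : s ≤ 2) (k : ℝ) (x : K) :
    testFun K s k x ≤ Real.exp 2 := by
  unfold testFun; split_ifs
  · exact (Real.exp_pos _).le
  · exact bump_le K hs0 hs _

/-- `e ^ (k / d)`. -/
def radius (k : ℝ) : ℝ := Real.exp (k / finrank ℚ K)

/-- The radius is positive. -/
lemma radius_pos (k : ℝ) : 0 < radius K k := Real.exp_pos _

/-- The radius is at least `1` at nonnegative levels. -/
lemma one_le_radius {k : ℝ} (hk : 0 ≤ k) : 1 ≤ radius K k :=
  Real.one_le_exp (by positivity)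

lemma exists_support :
    ∃ a b : ℝ, 0 < a ∧ 0 < b ∧ ∀ (s k : ℝ) (x : K), testFun K s k x ≠ 0 →
      ∀ w : InfinitePlace K, a * radius K k ≤ w x ∧ w x ≤ b * radius K k := by
  obtain ⟨c, hc, hbd⟩ := norm_le_allCoords K
  refine ⟨Real.exp (-c), Real.exp c, Real.exp_pos _, Real.exp_pos _, fun s k x hx w => ?_⟩
  have hx0 : x ≠ 0 := fun h => hx (by simp [testFun, h])
  have hb : bump K s (shiftVec K k x) ≠ 0 := by simpa [testFun, hx0] using hx
  have hw : |shiftVec K k x w| ≤ c :=
    ((norm_le_pi_norm _ w).trans (hbd _)).trans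
      (mul_le_of_le_one_right hc (norm_allCoords_le_one K hb))
  obtain ⟨h1, h2⟩ := abs_le.mp hw
  have hpos : 0 < w x := pos_iff.mpr hx0
  simp only [shiftVec] at h1 h2
  constructor
  · rw [radius, ← Real.exp_add]
    exact (Real.exp_le_exp.mpr (by linarith)).trans_eq (Real.exp_log hpos)
  · rw [radius, ← Real.exp_add]
    exact (Real.exp_log hpos).symm.trans_le (Real.exp_le_exp.mpr (by linarith))

/-- `log` is Lipschitz with constant `1 / m` on `[m, ∞)`. -/
lemma abs_log_sub_log_le {a b m : ℝ} (hm : 0 < m) (ha : m ≤ a) (hb : m ≤ b) :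
    |Real.log a - Real.log b| ≤ |a - b| / m := by
  wlog hab : b ≤ a generalizing a b
  · rw [abs_sub_comm, abs_sub_comm a b]
    exact this hb ha (le_of_not_ge hab)
  have ha0 : 0 < a := hm.trans_le ha
  have hb0 : 0 < b := hm.trans_le hb
  rw [abs_of_nonneg (sub_nonneg.mpr (Real.log_le_log hb0 hab)),
    abs_of_nonneg (sub_nonneg.mpr hab)]
  calc Real.log a - Real.log b = Real.log (a / b) := (Real.log_div ha0.ne' hb0.ne').symm
    _ ≤ a / b - 1 := Real.log_le_sub_one_of_pos (div_pos ha0 hb0)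
    _ = (a - b) / b := by field_simp
    _ ≤ (a - b) / m := div_le_div_of_nonneg_left (by linarith) hm hb

/-- The key smoothness estimate: translations by a bounded element move the test function by
`O(1 / radius)`. -/
lemma exists_shift_bound :
    ∃ C : ℝ, 0 ≤ C ∧ ∀ s : ℝ, 0 ≤ s → s ≤ 2 → ∀ k : ℝ, ∀ (M : ℝ), 0 ≤ M → ∀ x v : K,
      (∀ w : InfinitePlace K, w v ≤ M) →
      |testFun K s k (x + v) - testFun K s k x| ≤ C * M / radius K k := by
  obtain ⟨a, b, ha, -, hsupp⟩ := exists_support K
  obtain ⟨L, hL, hlip⟩ := exists_bump_lipschitz K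
  set C := max (2 * Real.exp 2 / a) (L * (2 / a)) with hC
  have hC0 : 0 ≤ C := le_max_of_le_left (by positivity)
  refine ⟨C, hC0, fun s hs0 hs k M hM x v hv => ?_⟩
  have hR := radius_pos K k
  have htriv : |testFun K s k (x + v) - testFun K s k x| ≤ Real.exp 2 :=
    abs_sub_le_iff.mpr ⟨by linarith [testFun_le K hs0 hs k (x + v), testFun_nonneg K s k x],
      by linarith [testFun_le K hs0 hs k x, testFun_nonneg K s k (x + v)]⟩
  by_cases hbig : a * radius K k / 2 ≤ M
  · refine htriv.trans ?_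
    rw [le_div_iff₀ hR]
    calc Real.exp 2 * radius K k ≤ Real.exp 2 * (2 * M / a) :=
          mul_le_mul_of_nonneg_left (by rw [le_div_iff₀ ha]; linarith) (Real.exp_pos _).le
      _ = 2 * Real.exp 2 / a * M := by ring
      _ ≤ C * M := mul_le_mul_of_nonneg_right (le_max_left _ _) hM
  rw [not_le] at hbig
  by_cases h00 : testFun K s k (x + v) = 0 ∧ testFun K s k x = 0
  · rw [h00.1, h00.2]; simp only [sub_self, abs_zero]; positivity
  have htri : ∀ w : InfinitePlace K, |w (x + v) - w x| ≤ M := fun w => by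
    refine le_trans ?_ (hv w)
    rw [abs_sub_le_iff]
    have h0 : w (x + v) ≤ w x + w v := w.1.add_le x v
    refine ⟨by linarith, ?_⟩
    have h : w x ≤ w (x + v) + w v := by
      have h0 := w.1.add_le (x + v) (-v)
      rw [add_neg_cancel_right, map_neg_eq_map] at h0
      exact h0
    linarith
  have hbelow : ∀ w : InfinitePlace K,
      a * radius K k / 2 ≤ w x ∧ a * radius K k / 2 ≤ w (x + v) := by
    intro w
    have hw := abs_sub_le_iff.mp (htri w)
    by_cases h1 : testFun K s k (x + v) = 0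
    · have := (hsupp s k x (fun h => h00 ⟨h1, h⟩) w).1
      constructor <;> linarith
    · have := (hsupp s k _ h1 w).1
      constructor <;> linarith
  have hm : 0 < a * radius K k / 2 := by positivity
  obtain ⟨w'⟩ : Nonempty (InfinitePlace K) := inferInstance
  have hx0 : x ≠ 0 := pos_iff.mp (hm.trans_le (hbelow w').1)
  have hxv0 : x + v ≠ 0 := pos_iff.mp (hm.trans_le (hbelow w').2)
  rw [testFun, testFun, if_neg hx0, if_neg hxv0]
  refine (hlip s hs0 hs _ _).trans ?_
  have hn : ‖shiftVec K k (x + v) - shiftVec K k x‖ ≤ M / (a * radius K k / 2) := by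
    refine (pi_norm_le_iff_of_nonneg (by positivity)).mpr fun w => ?_
    simp only [Pi.sub_apply, shiftVec, sub_sub_sub_cancel_right, Real.norm_eq_abs]
    exact (abs_log_sub_log_le hm (hbelow w).2 (hbelow w).1).trans
      (div_le_div_of_nonneg_right (htri w) hm.le)
  calc L * ‖shiftVec K k (x + v) - shiftVec K k x‖
      ≤ L * (M / (a * radius K k / 2)) := mul_le_mul_of_nonneg_left hn hL
    _ = L * (2 / a) * M / radius K k := by field_simp
    _ ≤ C * M / radius K k := by
        gcongr
        exact le_max_right _ _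

/-! ### Counting algebraic integers in boxes -/

lemma exists_count_bound :
    ∃ A : ℝ, 0 ≤ A ∧ ∀ B : ℝ, 1 ≤ B → ∀ T : Finset (𝓞 K),
      (∀ x ∈ T, ∀ w : InfinitePlace K, w (x : K) ≤ B) →
      (T.card : ℝ) ≤ A * B ^ finrank ℚ K := by
  classical
  let e := (mixedEmbedding.latticeBasis K).equivFun.toLinearMap.toContinuousLinearMap
  refine ⟨(2 * ‖e‖ + 3) ^ finrank ℚ K, by positivity, fun B hB T hT => ?_⟩
  let f : 𝓞 K → (Module.Free.ChooseBasisIndex ℤ (𝓞 K) → ℤ) :=
    fun x i => (RingOfIntegers.basis K).repr x i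
  have hf : Function.Injective f := fun x y h =>
    (RingOfIntegers.basis K).repr.injective (Finsupp.ext fun i => congrFun h i)
  set N : ℤ := ⌈‖e‖ * B⌉
  have hN : 0 ≤ N := Int.ceil_nonneg (by positivity)
  have hmem : ∀ x ∈ T, f x ∈ Fintype.piFinset fun _ => Finset.Icc (-N) N := by
    intro x hx
    refine Fintype.mem_piFinset.mpr fun i => ?_
    have h1 : ‖mixedEmbedding K (x : K)‖ ≤ B := by
      rw [mixedEmbedding.norm_eq_sup'_normAtPlace]
      refine Finset.sup'_le _ _ fun w _ => ?_
      rw [mixedEmbedding.normAtPlace_apply]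
      exact hT x hx w
    have h2 : |((f x i : ℤ) : ℝ)| ≤ ‖e‖ * B := by
      have h3 : e (mixedEmbedding K (x : K)) i = ((f x i : ℤ) : ℝ) := by
        show (mixedEmbedding.latticeBasis K).repr (mixedEmbedding K (x : K)) i = _
        rw [mixedEmbedding.latticeBasis_repr_apply, integralBasis_repr_apply]
        simp [f]
      rw [← h3]
      exact ((norm_le_pi_norm _ i).trans (e.le_opNorm _)).trans
        (mul_le_mul_of_nonneg_left h1 (norm_nonneg _))
    obtain ⟨h4, h5⟩ := abs_le.mp (h2.trans (Int.le_ceil _))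
    rw [Finset.mem_Icc]
    constructor
    · exact_mod_cast h4
    · exact_mod_cast h5
  have hcard := Finset.card_le_card_of_injOn f (fun x hx => hmem x hx) hf.injOn
  simp only [Fintype.card_piFinset, Int.card_Icc, Finset.prod_const, Finset.card_univ] at hcard
  rw [← finrank_eq_card_chooseBasisIndex, RingOfIntegers.rank] at hcard
  refine (Nat.cast_le.mpr hcard).trans ?_
  rw [Nat.cast_pow, ← mul_pow]
  refine pow_le_pow_left₀ (Nat.cast_nonneg _) ?_ _
  have h6 : ((N + 1 - -N).toNat : ℝ) = 2 * (N : ℝ) + 1 := by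
    have : (((N + 1 - -N).toNat : ℕ) : ℤ) = 2 * N + 1 := by omega
    exact_mod_cast this
  rw [h6]
  have h7 : (N : ℝ) < ‖e‖ * B + 1 := Int.ceil_lt_add_one _
  nlinarith [norm_nonneg e]

end Fermat.Agent.ClassLSeries
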